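/-
Program MAZ (S15), G-side pole P1 = (PT) "J₀(p) is purely toric at p", brick (A) GENUS BOUND
`#nodes - 1 ≤ g` (helper61; assignment helper90 #2091 §4, cut #2196), part 1: THE ABSTRACT CORE.
Mathlib + `Branch98.overlap` + `CechAdelic9` (Čech form of `genusFF` over an algebraically closed
constant field).

Arithmetic side: `R` with `π`, two charts `B0 ∋ t`, `B1` inside a field `F`, `B01 = B0[1/t]`
(`Branch98.overlap`).  `H0k` = the literal conclusion of `H0k98.h0k` (`H⁰(X_k, O) = k`).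
* `mem_add_of_pow_mul` : `H¹(X_R, O) = B01 / (B0 + B1)` has no `π`-torsion (from `H0k`);
* `ResidIndep h` : the classes of `h₁ … h_m ∈ B01` in `B01 / (B0 + B1 + π B01) = H¹(X_k, O)` are
  independent over `R / π`, elementwise;
* `eq_zero_of_relation` : such a family satisfies no nontrivial `R`-linear relation modulo
  `B0[1/π] + B1[1/π]`.

Geometric side: `Kb` algebraically closed of characteristic `0`, `Fb / Kb` a function field with
generator `x` (`IsGen Kb x`), `ι : F →+* Fb` with `ι t = x`.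
* `map_mem_latFin` **(D1)** : elements integral over `R[t]` map into `A₀ = latFin x 0`;
* `le_genusFF` : if `Kb`-linear relations among the `ι (h i)` modulo `A₀ + A₁` DESCEND to `R`-linear
  relations modulo `B0[1/π] + B1[1/π]` (`hdesc`, = brick (A-D2)), then `m ≤ genusFF Kb Fb`.
-/
import Mathlib
import Fermat.Agent.M1.Fib.Branch98
import Fermat.Agent.JAC.FF.CechAdelic9

set_option autoImplicit false
set_option linter.unusedSectionVars false

open AlgebraicCurve

namespace Fermat.Agent.MAZ.Toric.GenusBound61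

open Fermat.Agent.M1.Fib.Branch98 Fermat.Agent.JAC.FF.CechAdelic9 Fermat.Agent.X0.FF

section TorsionFree

variable {R F : Type*} [CommRing R] [Field F] [Algebra R F]
variable (π : R) (t : F) (B0 B1 : Subalgebra R F) (ht : t ∈ B0)

/-- `H⁰(X_k, O) = k`, elementwise (the literal conclusion of `H0k98.h0k`). -/
def H0k : Prop :=
  ∀ a ∈ B0, ∀ b ∈ B1, (∃ c ∈ overlap t B0 ht, a - b = algebraMap R F π * c) →
    ∃ r : R, (∃ c ∈ B0, a - algebraMap R F r = algebraMap R F π * c) ∧
      (∃ c ∈ B1, b - algebraMap R F r = algebraMap R F π * c)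

/-- A family of elements of the overlap ring `B01` whose classes in
`B01 / (B0 + B1 + π B01) = H¹(X_k, O)` are linearly independent over `R / π`, elementwise. -/
def ResidIndep {m : ℕ} (h : Fin m → F) : Prop :=
  ∀ r : Fin m → R,
    (∃ b0 ∈ B0, ∃ b1 ∈ B1, ∃ c ∈ overlap t B0 ht,
      ∑ i, algebraMap R F (r i) * h i = b0 + b1 + algebraMap R F π * c) →
    ∀ i, π ∣ r i

variable {π t B0 B1 ht}

/-- **`H¹(X_R, O) = B01 / (B0 + B1)` has no `π`-torsion** (from `H⁰(X_k, O) = k`). -/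
theorem mem_add_of_pow_mul (hπ : algebraMap R F π ≠ 0) (h0 : H0k π t B0 B1 ht) :
    ∀ (n : ℕ) (u : F), u ∈ overlap t B0 ht →
      (∃ β0 ∈ B0, ∃ β1 ∈ B1, algebraMap R F π ^ n * u = β0 + β1) →
      ∃ b0 ∈ B0, ∃ b1 ∈ B1, u = b0 + b1 := by
  intro n
  induction n with
  | zero =>
    rintro u - ⟨β0, h0', β1, h1', he⟩
    exact ⟨β0, h0', β1, h1', by rw [← he, pow_zero, one_mul]⟩
  | succ n ih =>
    rintro u hu ⟨β0, hβ0, β1, hβ1, he⟩
    have hπmem : algebraMap R F π ∈ overlap t B0 ht := (overlap t B0 ht).algebraMap_mem π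
    have hc : algebraMap R F π ^ n * u ∈ overlap t B0 ht :=
      (overlap t B0 ht).mul_mem ((overlap t B0 ht).pow_mem hπmem n) hu
    obtain ⟨r, ⟨c0, hc0, e0⟩, ⟨c1, hc1, e1⟩⟩ := h0 β0 hβ0 (-β1) (B1.neg_mem hβ1)
      ⟨_, hc, by rw [sub_neg_eq_add, ← he, pow_succ]; ring⟩
    refine ih u hu ⟨c0, hc0, -c1, B1.neg_mem hc1, ?_⟩
    apply mul_left_cancel₀ hπ
    have : algebraMap R F π * (algebraMap R F π ^ n * u) = β0 + β1 := by
      rw [← he, pow_succ]; ring
    rw [this]
    have e0' : β0 = algebraMap R F r + algebraMap R F π * c0 := by rw [← e0]; ring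
    have e1' : β1 = -(algebraMap R F r) - algebraMap R F π * c1 := by
      have : -β1 = algebraMap R F r + algebraMap R F π * c1 := by rw [← e1]; ring
      rw [← neg_neg β1, this]; ring
    rw [e0', e1']
    ring

/-- auxiliary induction for `eq_zero_of_relation`. -/
theorem false_of_relation_aux (hinj : Function.Injective (algebraMap R F))
    (hπu : ¬ IsUnit π) (hπ : algebraMap R F π ≠ 0)
    (h0 : H0k π t B0 B1 ht) {m : ℕ} {h : Fin m → F} (hh : ∀ i, h i ∈ overlap t B0 ht)
    (hind : ResidIndep π t B0 B1 ht h) :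
    ∀ (k : ℕ) (r : Fin m → R) (i₀ : Fin m) (v : Rˣ), r i₀ = π ^ k * v →
      ∀ (n : ℕ) (β0 β1 : F), β0 ∈ B0 → β1 ∈ B1 →
        algebraMap R F π ^ n * ∑ i, algebraMap R F (r i) * h i = β0 + β1 → False := by
  intro k
  induction k with
  | zero =>
    intro r i₀ v hv n β0 β1 hβ0 hβ1 he
    have hu : ∑ i, algebraMap R F (r i) * h i ∈ overlap t B0 ht :=
      Subalgebra.sum_mem _ fun i _ =>
        (overlap t B0 ht).mul_mem ((overlap t B0 ht).algebraMap_mem _) (hh i)
    obtain ⟨b0, hb0, b1, hb1, hb⟩ := mem_add_of_pow_mul hπ h0 n _ hu ⟨β0, hβ0, β1, hβ1, he⟩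
    have hdvd := hind r ⟨b0, hb0, b1, hb1, 0, (overlap t B0 ht).zero_mem, by
      rw [hb, mul_zero, add_zero]⟩ i₀
    rw [hv, pow_zero, one_mul] at hdvd
    exact hπu (isUnit_of_dvd_unit hdvd v.isUnit)
  | succ k ih =>
    intro r i₀ v hv n β0 β1 hβ0 hβ1 he
    have hu : ∑ i, algebraMap R F (r i) * h i ∈ overlap t B0 ht :=
      Subalgebra.sum_mem _ fun i _ =>
        (overlap t B0 ht).mul_mem ((overlap t B0 ht).algebraMap_mem _) (hh i)
    obtain ⟨b0, hb0, b1, hb1, hb⟩ := mem_add_of_pow_mul hπ h0 n _ hu ⟨β0, hβ0, β1, hβ1, he⟩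
    have hdvd := hind r ⟨b0, hb0, b1, hb1, 0, (overlap t B0 ht).zero_mem, by
      rw [hb, mul_zero, add_zero]⟩
    choose r' hr' using hdvd
    have hi₀ : r' i₀ = π ^ k * v := by
      apply hinj
      apply mul_left_cancel₀ hπ
      rw [← map_mul, ← hr' i₀, hv, ← map_mul]
      congr 1
      ring
    refine ih r' i₀ v hi₀ (n + 1) β0 β1 hβ0 hβ1 ?_
    rw [← he, pow_succ, mul_assoc, Finset.mul_sum]
    congr 1
    refine Finset.sum_congr rfl fun i _ => ?_
    rw [hr' i, map_mul]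
    ring

/-- **No relation**: a residually independent family of `B01` satisfies no nontrivial `R`-linear
relation modulo `B0[1/π] + B1[1/π]`. -/
theorem eq_zero_of_relation (hinj : Function.Injective (algebraMap R F))
    (dvrR : ∀ r : R, r ≠ 0 → ∃ (k : ℕ) (v : Rˣ), r = π ^ k * v) (hπu : ¬ IsUnit π)
    (hπ : algebraMap R F π ≠ 0)
    (h0 : H0k π t B0 B1 ht) {m : ℕ} {h : Fin m → F} (hh : ∀ i, h i ∈ overlap t B0 ht)
    (hind : ResidIndep π t B0 B1 ht h) (r : Fin m → R) (n : ℕ) (β0 β1 : F) (hβ0 : β0 ∈ B0)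
    (hβ1 : β1 ∈ B1)
    (he : algebraMap R F π ^ n * ∑ i, algebraMap R F (r i) * h i = β0 + β1) : r = 0 := by
  by_contra hr
  obtain ⟨i₀, hi₀⟩ : ∃ i, r i ≠ 0 := by
    by_contra hne
    push Not at hne
    exact hr (funext hne)
  obtain ⟨k, v, hkv⟩ := dvrR (r i₀) hi₀
  exact false_of_relation_aux hinj hπu hπ h0 hh hind k r i₀ v hkv n β0 β1 hβ0 hβ1 he

end TorsionFree

section Cech

variable {R F : Type*} [CommRing R] [Field F] [Algebra R F]
variable {π : R} {t : F} {B0 B1 : Subalgebra R F} {ht : t ∈ B0}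
variable {Kb Fb : Type*} [Field Kb] [Field Fb] [Algebra Kb Fb] [IsAlgClosed Kb] [CharZero Kb]
  {x : Fb}

/-- **(D1)** the image of an element integral over `R[t]` is regular at every place of the
geometric generic fibre at which `x = ι t` is finite. -/
theorem map_mem_latFin (ι : F →+* Fb) (hιt : ι t = x)
    (hιR : ∀ r : R, ∃ c : Kb, ι (algebraMap R F r) = algebraMap Kb Fb c) {b : F}
    (hb : IsIntegral ↥(Algebra.adjoin R {t}) b) : ι b ∈ latFin x (0 : Divisor Kb Fb) := by
  intro v hv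
  have hmem : ∀ a ∈ Algebra.adjoin R {t}, ι a ∈ v.toValuationSubring := by
    intro a ha
    induction ha using Algebra.adjoin_induction with
    | mem y hy =>
      rw [Set.mem_singleton_iff] at hy
      rw [hy, hιt]
      exact hv
    | algebraMap r =>
      obtain ⟨c, hc⟩ := hιR r
      rw [hc]
      exact v.algebraMap_mem' c
    | add y z _ _ hy hz =>
      rw [map_add]
      exact v.toValuationSubring.add_mem _ _ hy hz
    | mul y z _ _ hy hz =>
      rw [map_mul]
      exact v.toValuationSubring.mul_mem _ _ hy hz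
  let φ : ↥(Algebra.adjoin R {t}) →+* ↥v.toValuationSubring :=
    (ι.comp (Algebra.adjoin R {t}).val.toRingHom).codRestrict v.toValuationSubring.toSubring
      fun a => hmem a a.2
  have hint : IsIntegral ↥v.toValuationSubring (ι b) :=
    IsIntegral.map_of_comp_eq φ ι (RingHom.ext fun a => rfl) hb
  obtain ⟨y, hy⟩ := IsIntegrallyClosed.algebraMap_eq_of_integral hint
  have hmemb : ι b ∈ v.toValuationSubring := by
    rw [← hy]
    exact y.2
  have h0 : ((0 : Divisor Kb Fb) v) = 0 := rfl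
  rw [h0, WithZero.exp_zero]
  exact v.adicValuation_le_one_of_mem hmemb

/-- the image of the overlap ring lies in `A₀₁`. -/
theorem map_mem_latBoth (hx0 : x ≠ 0) (ι : F →+* Fb) (hιt : ι t = x)
    (hι0 : ∀ b ∈ B0, ι b ∈ latFin x (0 : Divisor Kb Fb)) {u : F} (hu : u ∈ overlap t B0 ht) :
    ι u ∈ latBoth x (0 : Divisor Kb Fb) := by
  obtain ⟨k, hk⟩ := hu
  intro v hv hv'
  have h1 := hι0 _ hk v hv
  rw [map_mul, map_pow, hιt] at h1
  have h2 : ι u = x⁻¹ ^ k * (x ^ k * ι u) := by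
    rw [← mul_assoc, ← mul_pow, inv_mul_cancel₀ hx0, one_pow, one_mul]
  rw [h2, map_mul, map_pow]
  have h3 : v.adicValuation x⁻¹ ≤ 1 := v.adicValuation_le_one_of_mem hv'
  calc v.adicValuation x⁻¹ ^ k * v.adicValuation (x ^ k * ι u)
      ≤ 1 * v.adicValuation (x ^ k * ι u) :=
        mul_le_mul_left (pow_le_one₀ zero_le h3) _
    _ = v.adicValuation (x ^ k * ι u) := one_mul _
    _ ≤ _ := h1

/-- **The genus bound, abstract form.**  A family of `m` elements of `B01`, residually independent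
in `H¹(X_k, O)`, maps to a `Kb`-independent family in the Čech `H¹` of the geometric generic fibre,
provided relations descend (`hdesc`).  Hence `m ≤ g`. -/
theorem le_genusFF (hx : IsGen Kb x) (ι : F →+* Fb) (hιt : ι t = x)
    (hι0 : ∀ b ∈ B0, ι b ∈ latFin x (0 : Divisor Kb Fb))
    (hinj : Function.Injective (algebraMap R F))
    (dvrR : ∀ r : R, r ≠ 0 → ∃ (k : ℕ) (v : Rˣ), r = π ^ k * v) (hπu : ¬ IsUnit π)
    (hπ : algebraMap R F π ≠ 0) (h0 : H0k π t B0 B1 ht)
    {m : ℕ} {h : Fin m → F} (hh : ∀ i, h i ∈ overlap t B0 ht)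
    (hind : ResidIndep π t B0 B1 ht h)
    (hdesc : ∀ c : Fin m → Kb, c ≠ 0 →
      (∑ i, c i • ι (h i)) ∈ latFin x (0 : Divisor Kb Fb) ⊔ latInf x 0 →
      ∃ r : Fin m → R, r ≠ 0 ∧ ∃ (n : ℕ) (β0 β1 : F), β0 ∈ B0 ∧ β1 ∈ B1 ∧
        algebraMap R F π ^ n * ∑ i, algebraMap R F (r i) * h i = β0 + β1) :
    m ≤ genusFF Kb Fb := by
  classical
  set Q := ↥(latBoth x (0 : Divisor Kb Fb)) ⧸
    (latFin x (0 : Divisor Kb Fb) ⊔ latInf x 0).comap (latBoth x (0 : Divisor Kb Fb)).subtype
    with hQ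
  let e : Fin m → ↥(latBoth x (0 : Divisor Kb Fb)) := fun i =>
    ⟨ι (h i), map_mem_latBoth hx.ne_zero ι hιt hι0 (hh i)⟩
  let q : Fin m → Q := fun i => Submodule.mkQ _ (e i)
  have hli : LinearIndependent Kb q := by
    rw [Fintype.linearIndependent_iff]
    intro c hc
    by_contra hne
    have hc0 : c ≠ 0 := fun h0' => hne fun i => by rw [h0']; rfl
    have h1 : (∑ i, c i • e i) ∈
        (latFin x (0 : Divisor Kb Fb) ⊔ latInf x 0).comap
          (latBoth x (0 : Divisor Kb Fb)).subtype := by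
      rw [← Submodule.Quotient.mk_eq_zero, ← Submodule.mkQ_apply, map_sum]
      simpa only [map_smul] using hc
    rw [Submodule.mem_comap, map_sum] at h1
    simp only [map_smul, Submodule.subtype_apply] at h1
    obtain ⟨r, hr, n, β0, β1, hβ0, hβ1, he⟩ := hdesc c hc0 h1
    exact hr (eq_zero_of_relation hinj dvrR hπu hπ h0 hh hind r n β0 β1 hβ0 hβ1 he)
  have : Module.Finite Kb Q := finite_cech hx 0
  have h2 := hli.fintype_card_le_finrank
  rw [Fintype.card_fin] at h2
  rw [genusFF_eq_finrank hx]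
  exact h2

end Cech

end Fermat.Agent.MAZ.Toric.GenusBound61
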