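/-
Program MAZ (S15), G-side, brick (PT) "purely toric", sub-brick (LVL-ABS) (helper90).  Mathlib only.

**Descent of the toric bound from an auxiliary level.**

`M` (think `J₀(p)[m]`) and `M'` (think `J₀(4p)[m]`) finite abelian groups, `n : M →+ M`,
`n' : M' →+ M'` (think `τ - 1`, `τ` a generator of the image of inertia), `i : M →+ M'`
(think `π^*`), `j : M' →+ M` (think `π_*`) with `j ∘ i = d`, both commuting with `n`, `n'`, and
`n' ∘ n' = 0` on `ker j` (unipotence).  Then

  `(#ker n)² · #M' ≤ #M · (#ker n')² · (#M[d])³`      (`card_ker_sq_mul_le`).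

Consequently (`card_ker_le_of_aux`): if `#M = m^(2g)`, `#M' = m^(2g')`, `#M[d] ≤ D₀` and
`#ker n' ≤ C' · m^g'` (the toric bound at the auxiliary level), then `#ker n ≤ C' · D₀² · m^g`
(the toric bound at the level itself).  No information on the "complement" `ker j` is needed beyond
the formal inequality `#n'(ker j)² ≤ #ker j`.
-/
import Mathlib

set_option autoImplicit false

namespace Fermat.Agent.MAZ.Toric.LevelDescentAbs90

section Basic

variable {G H : Type*} [AddCommGroup G] [AddCommGroup H]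

/-- rank–nullity for finite groups. -/
theorem card_ker_mul_card_range [Finite G] (f : G →+ H) :
    Nat.card f.ker * Nat.card f.range = Nat.card G := by
  rw [← AddSubgroup.index_ker, AddSubgroup.card_mul_index]

/-- the image of a subgroup `R` under `f` is not much smaller than the image of the whole group. -/
theorem card_mul_card_range_le [Finite G] (f : G →+ H) (R : AddSubgroup G) :
    Nat.card R * Nat.card f.range ≤ Nat.card (R.map f) * Nat.card G := by
  -- `#R ≤ #(f R) · #ker f`
  have h1 : Nat.card R ≤ Nat.card (R.map f) * Nat.card f.ker := by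
    let fR : R →+ H := f.comp R.subtype
    have hr : Nat.card fR.ker * Nat.card fR.range = Nat.card R := card_ker_mul_card_range fR
    have hrange : Nat.card fR.range = Nat.card (R.map f) := by
      have : fR.range = R.map f := by
        ext y
        constructor
        · rintro ⟨x, rfl⟩
          exact ⟨x, x.2, rfl⟩
        · rintro ⟨x, hx, rfl⟩
          exact ⟨⟨x, hx⟩, rfl⟩
      rw [this]
    have hker : Nat.card fR.ker ≤ Nat.card f.ker := by
      refine Nat.card_le_card_of_injective (fun x => (⟨(x : R), x.2⟩ : f.ker)) ?_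
      intro x y hxy
      have : ((x : R) : G) = ((y : R) : G) := congrArg (fun z : f.ker => (z : G)) hxy
      exact Subtype.ext (Subtype.ext this)
    rw [← hr, hrange, mul_comm]
    exact Nat.mul_le_mul_left _ hker
  have h2 : Nat.card f.ker * Nat.card f.range = Nat.card G := card_ker_mul_card_range f
  calc Nat.card R * Nat.card f.range
      ≤ Nat.card (R.map f) * Nat.card f.ker * Nat.card f.range := Nat.mul_le_mul_right _ h1
    _ = Nat.card (R.map f) * Nat.card G := by rw [mul_assoc, h2]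

/-- an endomorphism of square zero has an image of order at most the square root. -/
theorem card_range_sq_le [Finite G] (f : G →+ G) (hf : ∀ x, f (f x) = 0) :
    Nat.card f.range ^ 2 ≤ Nat.card G := by
  have h1 : Nat.card f.range ≤ Nat.card f.ker := by
    refine Nat.card_le_card_of_injective (fun x => (⟨(x : G), ?_⟩ : f.ker)) ?_
    · obtain ⟨y, hy⟩ := x.2
      rw [AddMonoidHom.mem_ker, ← hy]
      exact hf y
    · intro x y hxy
      exact Subtype.ext (congrArg (fun z : f.ker => (z : G)) hxy)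
  rw [← card_ker_mul_card_range f, pow_two]
  exact Nat.mul_le_mul_right _ h1

end Basic

section Main

variable {M M' : Type*} [AddCommGroup M] [AddCommGroup M'] [Finite M] [Finite M']
  (n : M →+ M) (n' : M' →+ M') (i : M →+ M') (j : M' →+ M) (d : ℕ)

/-- `M[d]`. -/
def torsD (M : Type*) [AddCommGroup M] (d : ℕ) : AddSubgroup M := (nsmulAddMonoidHom d).ker

omit [Finite M] in
theorem mem_torsD {d : ℕ} {x : M} : x ∈ torsD M d ↔ d • x = 0 := by
  rw [torsD, AddMonoidHom.mem_ker]
  rfl

/-- **(LVL-ABS)**, cardinality form. -/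
theorem card_ker_sq_mul_le (hji : ∀ x, j (i x) = d • x) (hin : ∀ x, i (n x) = n' (i x))
    (hjn : ∀ y, j (n' y) = n (j y)) (hsq : ∀ y, j y = 0 → n' (n' y) = 0) :
    Nat.card n.ker ^ 2 * Nat.card M' ≤
      Nat.card M * Nat.card n'.ker ^ 2 * Nat.card (torsD M d) ^ 3 := by
  classical
  set δ := Nat.card (torsD M d) with hδ
  set a := Nat.card n.range with ha
  set a' := Nat.card n'.range with ha'
  set κ := Nat.card n.ker with hκ
  set κ' := Nat.card n'.ker with hκ'
  have hMpos : 0 < Nat.card M := Nat.card_pos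
  have hM'pos : 0 < Nat.card M' := Nat.card_pos
  have haκ : κ * a = Nat.card M := card_ker_mul_card_range n
  have haκ' : κ' * a' = Nat.card M' := card_ker_mul_card_range n'
  -- the complement
  let B : AddSubgroup M' := j.ker
  have hBn : ∀ b : B, n' (b : M') ∈ B := fun b => by
    show j (n' (b : M')) = 0
    rw [hjn, (show j (b : M') = 0 from b.2), map_zero]
  -- `n'` restricted to `B`
  let nB : B →+ B :=
    { toFun := fun b => ⟨n' (b : M'), hBn b⟩
      map_zero' := Subtype.ext (by simp)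
      map_add' := fun x y => Subtype.ext (by simp) }
  have hnB : ∀ b : B, ((nB b : B) : M') = n' (b : M') := fun _ => rfl
  set b := Nat.card nB.range with hb
  -- (E6) `b² ≤ #B`
  have hE6 : b ^ 2 ≤ Nat.card B := by
    refine card_range_sq_le nB fun x => ?_
    apply Subtype.ext
    rw [hnB, hnB]
    exact hsq _ x.2
  -- (E2) `#M' ≤ #B · #M`
  have hBj : Nat.card B * Nat.card j.range = Nat.card M' := card_ker_mul_card_range j
  have hE2 : Nat.card M' ≤ Nat.card B * Nat.card M := by
    rw [← hBj]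
    exact Nat.mul_le_mul_left _ (Nat.card_le_card_of_injective (fun x => (x : M))
      Subtype.val_injective)
  -- (E3) `#B · #M ≤ #M' · δ`
  have hE3 : Nat.card B * Nat.card M ≤ Nat.card M' * δ := by
    have h1 : Nat.card (nsmulAddMonoidHom (α := M) d).ker *
        Nat.card (nsmulAddMonoidHom (α := M) d).range = Nat.card M :=
      card_ker_mul_card_range _
    have h2 : Nat.card (nsmulAddMonoidHom (α := M) d).range ≤ Nat.card j.range := by
      refine Nat.card_le_card_of_injective (fun x => (⟨(x : M), ?_⟩ : j.range)) ?_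
      · obtain ⟨y, hy⟩ := x.2
        refine ⟨i y, ?_⟩
        rw [hji, ← hy]
        rfl
      · intro x y hxy
        exact Subtype.ext (congrArg (fun z : j.range => (z : M)) hxy)
    calc Nat.card B * Nat.card M
        = Nat.card B * (δ * Nat.card (nsmulAddMonoidHom (α := M) d).range) := by rw [← h1]; rfl
      _ ≤ Nat.card B * (δ * Nat.card j.range) :=
          Nat.mul_le_mul_left _ (Nat.mul_le_mul_left _ h2)
      _ = Nat.card M' * δ := by rw [← hBj]; ring
  -- the map `Φ (x, b) = i x + b`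
  let Φ : M × B →+ M' := i.coprod B.subtype
  have hΦ : ∀ x : M × B, Φ x = i x.1 + (x.2 : M') := fun x => by
    simp [Φ, AddMonoidHom.coprod_apply]
  set R : AddSubgroup M' := Φ.range with hR
  -- (E1) `#M · #B ≤ δ · #R`
  have hE1 : Nat.card M * Nat.card B ≤ δ * Nat.card R := by
    have h1 : Nat.card Φ.ker * Nat.card Φ.range = Nat.card (M × B) := card_ker_mul_card_range Φ
    have h2 : Nat.card Φ.ker ≤ δ := by
      refine Nat.card_le_card_of_injective (fun x => (⟨(x : M × B).1, ?_⟩ : torsD M d)) ?_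
      · rw [mem_torsD]
        have hx : Φ (x : M × B) = 0 := x.2
        rw [hΦ] at hx
        have h3 := congrArg j hx
        rw [map_add, hji, map_zero, (show j ((x : M × B).2 : M') = 0 from (x : M × B).2.2),
          add_zero] at h3
        exact h3
      · intro x y hxy
        have h1 : (x : M × B).1 = (y : M × B).1 := congrArg (fun z : torsD M d => (z : M)) hxy
        have hx : Φ (x : M × B) = 0 := x.2
        have hy : Φ (y : M × B) = 0 := y.2
        rw [hΦ] at hx hy
        have h2 : (((x : M × B).2 : B) : M') = (((y : M × B).2 : B) : M') := by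
          have ex : (((x : M × B).2 : B) : M') = -i (x : M × B).1 := by
            rw [eq_neg_iff_add_eq_zero, add_comm]; exact hx
          have ey : (((y : M × B).2 : B) : M') = -i (y : M × B).1 := by
            rw [eq_neg_iff_add_eq_zero, add_comm]; exact hy
          rw [ex, ey, h1]
        exact Subtype.ext (Prod.ext h1 (Subtype.ext h2))
    rw [Nat.card_prod] at h1
    rw [← h1]
    exact Nat.mul_le_mul_right _ h2
  -- (E4) `#n'(R) ≤ a · b`
  have hE4 : Nat.card (R.map n') ≤ a * b := by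
    rw [ha, hb, ← Nat.card_prod]
    have hsurj : ∀ y : R.map n', ∃ x : n.range × nB.range,
        i (x.1 : M) + (((x.2 : B)) : M') = (y : M') := by
      rintro ⟨y, z, ⟨x, rfl⟩, rfl⟩
      refine ⟨(⟨n x.1, x.1, rfl⟩, ⟨nB x.2, x.2, rfl⟩), ?_⟩
      show i (n x.1) + ((nB x.2 : B) : M') = n' (Φ x)
      rw [hΦ, map_add, hin, hnB]
    choose g hg using hsurj
    refine Nat.card_le_card_of_injective g fun y y' hyy' => ?_
    apply Subtype.ext
    rw [← hg y, ← hg y', hyy']
  -- (E5) `#R · a' ≤ #n'(R) · #M'`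
  have hE5 : Nat.card R * a' ≤ Nat.card (R.map n') * Nat.card M' := card_mul_card_range_le n' R
  -- (E7) `a' ≤ δ · a · b`
  have hE7 : a' ≤ δ * (a * b) := by
    have h1 : Nat.card M' * a' ≤ Nat.card M' * (δ * (a * b)) :=
      calc Nat.card M' * a' ≤ Nat.card B * Nat.card M * a' := Nat.mul_le_mul_right _ hE2
        _ = Nat.card M * Nat.card B * a' := by ring
        _ ≤ δ * Nat.card R * a' := Nat.mul_le_mul_right _ hE1
        _ = δ * (Nat.card R * a') := by ring
        _ ≤ δ * (Nat.card (R.map n') * Nat.card M') := Nat.mul_le_mul_left _ hE5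
        _ ≤ δ * (a * b * Nat.card M') := Nat.mul_le_mul_left _ (Nat.mul_le_mul_right _ hE4)
        _ = Nat.card M' * (δ * (a * b)) := by ring
    exact Nat.le_of_mul_le_mul_left h1 hM'pos
  -- (E8) `a'² · #M ≤ δ³ · a² · #M'`
  have hE8 : a' ^ 2 * Nat.card M ≤ δ ^ 3 * a ^ 2 * Nat.card M' :=
    calc a' ^ 2 * Nat.card M ≤ (δ * (a * b)) ^ 2 * Nat.card M :=
          Nat.mul_le_mul_right _ (Nat.pow_le_pow_left hE7 2)
      _ = δ ^ 2 * a ^ 2 * (b ^ 2 * Nat.card M) := by ring
      _ ≤ δ ^ 2 * a ^ 2 * (Nat.card B * Nat.card M) :=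
          Nat.mul_le_mul_left _ (Nat.mul_le_mul_right _ hE6)
      _ ≤ δ ^ 2 * a ^ 2 * (Nat.card M' * δ) := Nat.mul_le_mul_left _ hE3
      _ = δ ^ 3 * a ^ 2 * Nat.card M' := by ring
  -- conclusion
  have hfin : Nat.card M' * Nat.card M * (κ ^ 2 * Nat.card M') ≤
      Nat.card M' * Nat.card M * (Nat.card M * κ' ^ 2 * δ ^ 3) :=
    calc Nat.card M' * Nat.card M * (κ ^ 2 * Nat.card M')
        = (κ' * a') ^ 2 * Nat.card M * κ ^ 2 := by rw [haκ']; ring
      _ = κ' ^ 2 * κ ^ 2 * (a' ^ 2 * Nat.card M) := by ring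
      _ ≤ κ' ^ 2 * κ ^ 2 * (δ ^ 3 * a ^ 2 * Nat.card M') := Nat.mul_le_mul_left _ hE8
      _ = κ' ^ 2 * δ ^ 3 * (κ * a) ^ 2 * Nat.card M' := by ring
      _ = Nat.card M' * Nat.card M * (Nat.card M * κ' ^ 2 * δ ^ 3) := by rw [haκ]; ring
  exact Nat.le_of_mul_le_mul_left hfin (Nat.mul_pos hM'pos hMpos)

/-- **(LVL-ABS)**: the toric bound descends from the auxiliary level. -/
theorem card_ker_le_of_aux (hji : ∀ x, j (i x) = d • x) (hin : ∀ x, i (n x) = n' (i x))
    (hjn : ∀ y, j (n' y) = n (j y)) (hsq : ∀ y, j y = 0 → n' (n' y) = 0)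
    (m g g' C' D₀ : ℕ) (hm : 0 < m) (hM : Nat.card M = m ^ (2 * g))
    (hM' : Nat.card M' = m ^ (2 * g')) (hD₀ : Nat.card (torsD M d) ≤ D₀)
    (haux : Nat.card n'.ker ≤ C' * m ^ g') :
    Nat.card n.ker ≤ C' * D₀ ^ 2 * m ^ g := by
  have h := card_ker_sq_mul_le n n' i j d hji hin hjn hsq
  have hδpos : 0 < Nat.card (torsD M d) := Nat.card_pos
  have hD₀pos : 0 < D₀ := lt_of_lt_of_le hδpos hD₀
  rw [hM, hM'] at h
  have h1 : Nat.card n.ker ^ 2 * m ^ (2 * g') ≤ (C' * D₀ ^ 2 * m ^ g) ^ 2 * m ^ (2 * g') :=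
    calc Nat.card n.ker ^ 2 * m ^ (2 * g')
        ≤ m ^ (2 * g) * Nat.card n'.ker ^ 2 * Nat.card (torsD M d) ^ 3 := h
      _ ≤ m ^ (2 * g) * (C' * m ^ g') ^ 2 * D₀ ^ 3 :=
          Nat.mul_le_mul (Nat.mul_le_mul_left _ (Nat.pow_le_pow_left haux 2))
            (Nat.pow_le_pow_left hD₀ 3)
      _ ≤ m ^ (2 * g) * (C' * m ^ g') ^ 2 * D₀ ^ 4 :=
          Nat.mul_le_mul_left _ (Nat.pow_le_pow_right hD₀pos (by norm_num))
      _ = (C' * D₀ ^ 2 * m ^ g) ^ 2 * m ^ (2 * g') := by ring
  have h2 : Nat.card n.ker ^ 2 ≤ (C' * D₀ ^ 2 * m ^ g) ^ 2 :=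
    Nat.le_of_mul_le_mul_right h1 (pow_pos hm _)
  exact (Nat.pow_le_pow_iff_left (by norm_num : (2 : ℕ) ≠ 0)).mp h2

end Main

end Fermat.Agent.MAZ.Toric.LevelDescentAbs90
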