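/-
Program MAZ (S15), G-side pole P1 = (PT), brick (A) GENUS BOUND `#nodes - 1 ≤ g` (helper61;
helper90 #2091 §4, cut #2196), part 2: **(A-SF) THE TORIC CLASSES OF THE SPECIAL FIBRE** and the
assembly with `GenusBound61.le_genusFF`.

`D : NodalNumData R K F π t B0 B1 O1 O2`, `𝔪₀, …, 𝔪_m` distinct two-branch points of the chart
`B0` (`H0k98.IsNode`).  Inputs from the FIB chapter: `ResidueAlgClosed` for both components
(`ACModel98`), seminormality at the nodes of `B0` (`Seminormal98.NodeSumAt`, from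
`SemiLocal98.semi_of_thickNodes`), and a uniform exponent `t^(e+1) ≡ t` at the nodes (finite
residue fields: `RatNodesAbs73.exists_uniform_pow_nodes`).

* `exists_residIndep` : `m` elements `h_i = β_i / t^(M+1) ∈ B01`, where `β_i ∈ B0` glues
  `(t (t^M - 1) a_i, 0)` on the two branches (`Seminormal98.exists_glue_iff`), `a_i ≡ δ_{ij}` at
  `𝔪_j` (CRT), `e ∣ M`, `t^{-M} a_i ∈ B1`; they are residually independent in
  `H¹(X_k, O) = B01 / (B0 + B1 + π B01)`: a relation `Σ r_i h_i = b0 + b1 + π c` gives constants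
  `ρ₁, ρ₂` on the two components (`Constants98.exists_const_of_mem_both`) with
  `Σ r_i a_i ≡ ρ₁ - ρ₂` at EVERY node, so `ρ₁ ≡ ρ₂` (node `0`) and `π ∣ r_i` (node `i + 1`).
* `le_genusFF_of_nodes` : **(A)** `m ≤ genusFF Kb Fb` for the geometric generic fibre `Fb / Kb`,
  with the descent of relations (A-D2) as the only open hypothesis `hdesc`.
-/
import Mathlib
import Fermat.Agent.M1.Fib.Seminormal98
import Fermat.Agent.MAZ.Toric.GenusBound61

set_option autoImplicit false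
set_option linter.unusedSectionVars false
set_option linter.style.haveILetI false

namespace Fermat.Agent.MAZ.Toric.NodeClasses61

open Fermat.Agent.ES.N34.NodalCore13 Fermat.Agent.ES.N34.NodalCL13
  Fermat.Agent.ES.N34.NumData13 Fermat.Agent.M1.Fib.Branch98 Fermat.Agent.M1.Fib.Constants98
  Fermat.Agent.M1.Fib.H0k98 Fermat.Agent.M1.Fib.Seminormal98
  Fermat.Agent.MAZ.Toric.GenusBound61

variable {R K F : Type*} [CommRing R] [Field K] [Field F] [Algebra R K] [Algebra K F]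
  [Algebra R F] [IsScalarTower R K F]
variable {π : R} {t : F} {B0 B1 : Subalgebra R F} {O1 O2 : ValuationSubring F}

/-- membership of an element of `R` in a node. -/
theorem dvd_of_algebraMap_mem_node (D : NodalNumData R K F π t B0 B1 O1 O2) {𝔫 : Ideal B0}
    (h𝔫 : IsNode π B0 O1 O2 𝔫) {r : R} (hr : algebraMap R B0 r ∈ 𝔫) : π ∣ r :=
  dvd_of_mem_of_dvr D.dvrR 𝔫 h𝔫.1.ne_top hr

theorem algebraMap_mem_node_of_dvd {𝔫 : Ideal B0} (h𝔫 : IsNode π B0 O1 O2 𝔫) {r : R}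
    (hr : π ∣ r) : algebraMap R B0 r ∈ 𝔫 := by
  obtain ⟨s, rfl⟩ := hr
  rw [map_mul]
  exact 𝔫.mul_mem_right _ h𝔫.2.1

theorem piMem_sum {O : ValuationSubring F} {ι : Type*} (s : Finset ι) (f : ι → F)
    (h : ∀ i ∈ s, PiMem π O (f i)) : PiMem π O (∑ i ∈ s, f i) :=
  Finset.sum_induction f (PiMem π O) (fun _ _ hx hy => hx.add hy) PiMem.zero h

/-- **(A-SF) The toric classes of the special fibre.**  `m + 1` distinct two-branch points of the
chart `B0` give `m` elements of `B01` which are residually independent in `H¹(X_k, O)`. -/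
theorem exists_residIndep (D : NodalNumData R K F π t B0 B1 O1 O2)
    (hac1 : ResidueAlgClosed π O1) (hac2 : ResidueAlgClosed π O2)
    (hnodes0 : ∀ 𝔫 : Ideal B0, IsNode π B0 O1 O2 𝔫 → NodeSumAt π B0 O1 O2 𝔫)
    (hpow : ∃ e : ℕ, 0 < e ∧ ∀ 𝔫 : Ideal B0, IsNode π B0 O1 O2 𝔫 →
      (⟨t, D.model.t_mem⟩ : B0) ^ (e + 1) - ⟨t, D.model.t_mem⟩ ∈ 𝔫)
    {m : ℕ} (𝔪 : Fin (m + 1) → Ideal B0) (h𝔪 : ∀ j, IsNode π B0 O1 O2 (𝔪 j))
    (hinj : Function.Injective 𝔪) :
    ∃ h : Fin m → F, (∀ i, h i ∈ overlap t B0 D.model.t_mem) ∧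
      ResidIndep π t B0 B1 D.model.t_mem h := by
  classical
  have M := D.model
  have hG1 := isGauss1 M
  have hG2 := isGauss2 M
  obtain ⟨e, he, hpow⟩ := hpow
  set tB : B0 := ⟨t, M.t_mem⟩ with htB
  -- Step 1: CRT
  have hcop : Pairwise (Function.onFun IsCoprime 𝔪) := by
    intro j j' hjj'
    haveI := (h𝔪 j).1
    haveI := (h𝔪 j').1
    exact Ideal.isCoprime_of_isMaximal fun h => hjj' (hinj h)
  have hcrt : ∀ i : Fin m, ∃ a : B0, ∀ j : Fin (m + 1),
      a - (if j = i.succ then (1 : B0) else 0) ∈ 𝔪 j := fun i =>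
    Ideal.exists_forall_sub_mem_ideal hcop fun j => if j = i.succ then (1 : B0) else 0
  choose a ha using hcrt
  -- Step 2: a common exponent
  have hov : ∀ i : Fin m, ∃ k : ℕ, t⁻¹ ^ k * (a i : F) ∈ B1 := fun i => M.ov1 _ (a i).2
  choose k hk using hov
  set Kk : ℕ := 1 + ∑ i, k i with hKk
  set M₀ : ℕ := e * Kk with hM₀
  have hkle : ∀ i, k i ≤ M₀ := by
    intro i
    have h1 : k i ≤ ∑ i, k i := Finset.single_le_sum (f := k) (fun _ _ => Nat.zero_le _)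
      (Finset.mem_univ i)
    have h2 : Kk ≤ e * Kk := Nat.le_mul_of_pos_left Kk he
    omega
  have ha1 : ∀ i, t⁻¹ ^ M₀ * (a i : F) ∈ B1 := by
    intro i
    have : t⁻¹ ^ M₀ * (a i : F) = t⁻¹ ^ (M₀ - k i) * (t⁻¹ ^ k i * (a i : F)) := by
      rw [← mul_assoc, ← pow_add, Nat.sub_add_cancel (hkle i)]
    rw [this]
    exact B1.mul_mem (B1.pow_mem M.tinv_mem _) (hk i)
  -- Step 3: glue
  have hnode_t : ∀ 𝔫 : Ideal B0, IsNode π B0 O1 O2 𝔫 → tB * (tB ^ M₀ - 1) ∈ 𝔫 := by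
    intro 𝔫 h𝔫
    obtain ⟨q, hq⟩ : tB ^ e - 1 ∣ tB ^ M₀ - 1 := by
      have := sub_dvd_pow_sub_pow (tB ^ e) 1 Kk
      rwa [one_pow, ← pow_mul] at this
    have : tB * (tB ^ M₀ - 1) = (tB ^ (e + 1) - tB) * q := by
      rw [hq, pow_succ]; ring
    rw [this]
    exact 𝔫.mul_mem_right _ (hpow 𝔫 h𝔫)
  have hglue : ∀ i : Fin m, ∃ b : B0,
      PiMem π O1 ((b : F) - ((tB * (tB ^ M₀ - 1) * a i : B0) : F)) ∧
      PiMem π O2 ((b : F) - ((0 : B0) : F)) := by
    intro i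
    rw [exists_glue_iff M.le_O1_0 M.le_O2_0 hnodes0]
    intro 𝔫 h𝔫
    rw [sub_zero]
    exact 𝔫.mul_mem_right _ (hnode_t 𝔫 h𝔫)
  choose β hβ1 hβ2 using hglue
  refine ⟨fun i => t⁻¹ ^ (M₀ + 1) * (β i : F), fun i => ⟨M₀ + 1, ?_⟩, ?_⟩
  · rw [← mul_assoc, ← mul_pow, mul_inv_cancel₀ M.t_ne, one_pow, one_mul]
    exact (β i).2
  -- Step 4: residual independence
  intro r hrel
  obtain ⟨b0, hb0, b1, hb1, c, hc, hsum⟩ := hrel
  have htinv1 : t⁻¹ ∈ O1 := M.tinv_mem_O1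
  have htinv2 : t⁻¹ ∈ O2 := M.tinv_mem_O2
  set A : B0 := ∑ i, algebraMap R B0 (r i) * a i with hA
  have hAF : (A : F) = ∑ i, algebraMap R F (r i) * (a i : F) := by
    rw [hA]
    push_cast
    rfl
  -- the `B1`-part of `A`
  have hA1 : t⁻¹ ^ M₀ * (A : F) ∈ B1 := by
    rw [hAF, Finset.mul_sum]
    refine Subalgebra.sum_mem _ fun i _ => ?_
    have : t⁻¹ ^ M₀ * (algebraMap R F (r i) * (a i : F)) =
        algebraMap R F (r i) * (t⁻¹ ^ M₀ * (a i : F)) := by ring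
    rw [this]
    exact B1.mul_mem (B1.algebraMap_mem _) (ha1 i)
  -- Claim 1: modulo `π O1`
  have hc1 : PiMem π O1 (algebraMap R F π * c) := piMem_pi_mul (overlap_le_O1 M hc)
  have hc2 : PiMem π O2 (algebraMap R F π * c) := piMem_pi_mul (overlap_le_O2 M hc)
  have hE1 : PiMem π O1 ((∑ i, algebraMap R F (r i) * (t⁻¹ ^ (M₀ + 1) * (β i : F))) -
      ((A : F) - t⁻¹ ^ M₀ * (A : F))) := by
    have : (∑ i, algebraMap R F (r i) * (t⁻¹ ^ (M₀ + 1) * (β i : F))) -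
        ((A : F) - t⁻¹ ^ M₀ * (A : F)) =
        ∑ i, algebraMap R F (r i) * (t⁻¹ ^ (M₀ + 1) *
          ((β i : F) - ((tB * (tB ^ M₀ - 1) * a i : B0) : F))) := by
      rw [hAF, Finset.mul_sum, ← Finset.sum_sub_distrib, ← Finset.sum_sub_distrib]
      refine Finset.sum_congr rfl fun i _ => ?_
      have hcoe : ((tB * (tB ^ M₀ - 1) * a i : B0) : F) = t * (t ^ M₀ - 1) * (a i : F) := by
        push_cast
        rfl
      have hts : t * t⁻¹ = 1 := mul_inv_cancel₀ M.t_ne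
      have htsM : t ^ M₀ * t⁻¹ ^ M₀ = 1 := by rw [← mul_pow, hts, one_pow]
      rw [hcoe, pow_succ]
      linear_combination (algebraMap R F (r i) * (a i : F) * t⁻¹ ^ M₀ * (t ^ M₀ - 1)) * hts +
        (algebraMap R F (r i) * (a i : F)) * htsM
    rw [this]
    refine piMem_sum _ _ fun i _ => ?_
    refine PiMem.mul_left (PiMem.mul_left (hβ1 i) (O1.pow_mem htinv1 _)) ?_
    exact M.le_O1_0 _ (B0.algebraMap_mem _)
  have hf1 : PiMem π O1 (((A : F) - b0) - (t⁻¹ ^ M₀ * (A : F) + b1)) := by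
    have : ((A : F) - b0) - (t⁻¹ ^ M₀ * (A : F) + b1) =
        algebraMap R F π * c - ((∑ i, algebraMap R F (r i) * (t⁻¹ ^ (M₀ + 1) * (β i : F))) -
          ((A : F) - t⁻¹ ^ M₀ * (A : F))) := by
      rw [hsum]; ring
    rw [this]
    exact hc1.sub hE1
  have hfB0 : (A : F) - b0 ∈ B0 := B0.sub_mem A.2 hb0
  have hgB1 : t⁻¹ ^ M₀ * (A : F) + b1 ∈ B1 := B1.add_mem hA1 hb1
  obtain ⟨ρ1, hρ1⟩ := exists_const_of_mem_both hG1 hac1 M.t_ne M.le_O1_0 M.le_O1_1 M.t_mem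
    M.tinv_mem M.int0 M.int1 hfB0 hgB1 (by rw [sub_self]; exact PiMem.zero) hf1
  -- Claim 2: modulo `π O2`
  have hE2 : PiMem π O2 (∑ i, algebraMap R F (r i) * (t⁻¹ ^ (M₀ + 1) * (β i : F))) := by
    refine piMem_sum _ _ fun i _ => ?_
    have h2 := hβ2 i
    rw [Subalgebra.coe_zero, sub_zero] at h2
    refine PiMem.mul_left (PiMem.mul_left h2 (O2.pow_mem htinv2 _)) ?_
    exact M.le_O2_0 _ (B0.algebraMap_mem _)
  have hf2 : PiMem π O2 ((-b0) - b1) := by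
    have : (-b0) - b1 = algebraMap R F π * c -
        ∑ i, algebraMap R F (r i) * (t⁻¹ ^ (M₀ + 1) * (β i : F)) := by
      rw [hsum]; ring
    rw [this]
    exact hc2.sub hE2
  obtain ⟨ρ2, hρ2⟩ := exists_const_of_mem_both hG2 hac2 M.t_ne M.le_O2_0 M.le_O2_1 M.t_mem
    M.tinv_mem M.int0 M.int1 (B0.neg_mem hb0) hb1 (by rw [sub_self]; exact PiMem.zero) hf2
  -- Claim 3: at the nodes
  set b0' : B0 := ⟨b0, hb0⟩ with hb0'
  have hnodeA : ∀ j, A - algebraMap R B0 ρ1 + algebraMap R B0 ρ2 ∈ 𝔪 j := by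
    intro j
    have h1 : A - b0' - algebraMap R B0 ρ1 ∈ 𝔪 j := by
      apply (not_offBranch_iff M.le_O1_0 (𝔪 j)).1 (h𝔪 j).2.2.1
      rw [mem_branchIdeal]
      have : ((A - b0' - algebraMap R B0 ρ1 : B0) : F) = (A : F) - b0 - algebraMap R F ρ1 := by
        push_cast; rfl
      rw [this]
      exact hρ1
    have h2 : -b0' - algebraMap R B0 ρ2 ∈ 𝔪 j := by
      apply (not_offBranch_iff M.le_O2_0 (𝔪 j)).1 (h𝔪 j).2.2.2
      rw [mem_branchIdeal]
      have : ((-b0' - algebraMap R B0 ρ2 : B0) : F) = -b0 - algebraMap R F ρ2 := by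
        push_cast; rfl
      rw [this]
      exact hρ2
    have : A - algebraMap R B0 ρ1 + algebraMap R B0 ρ2 =
        (A - b0' - algebraMap R B0 ρ1) - (-b0' - algebraMap R B0 ρ2) := by ring
    rw [this]
    exact (𝔪 j).sub_mem h1 h2
  have hAval : ∀ j, A - ∑ i, algebraMap R B0 (r i) * (if j = i.succ then (1 : B0) else 0) ∈ 𝔪 j := by
    intro j
    rw [hA, ← Finset.sum_sub_distrib]
    refine (𝔪 j).sum_mem fun i _ => ?_
    rw [← mul_sub]
    exact (𝔪 j).mul_mem_left _ (ha i j)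
  -- the base node
  have hρ : π ∣ ρ1 - ρ2 := by
    apply dvd_of_algebraMap_mem_node D (h𝔪 0)
    have h0 : ∑ i : Fin m, algebraMap R B0 (r i) * (if (0 : Fin (m + 1)) = i.succ then (1 : B0) else 0)
        = 0 := by
      refine Finset.sum_eq_zero fun i _ => ?_
      rw [if_neg (Fin.succ_ne_zero i).symm, mul_zero]
    have h1 := hAval 0
    rw [h0, sub_zero] at h1
    have : algebraMap R B0 (ρ1 - ρ2) = A - (A - algebraMap R B0 ρ1 + algebraMap R B0 ρ2) := by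
      rw [map_sub]; ring
    rw [this]
    exact (𝔪 0).sub_mem h1 (hnodeA 0)
  intro i
  apply dvd_of_algebraMap_mem_node D (h𝔪 i.succ)
  have hsumi : ∑ i' : Fin m, algebraMap R B0 (r i') *
      (if i.succ = i'.succ then (1 : B0) else 0) = algebraMap R B0 (r i) := by
    rw [Finset.sum_eq_single i]
    · rw [if_pos rfl, mul_one]
    · intro i' _ hne
      rw [if_neg fun h => hne (Fin.succ_injective _ h).symm, mul_zero]
    · intro h
      exact absurd (Finset.mem_univ i) h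
  have h1 := hAval i.succ
  rw [hsumi] at h1
  have h2 := hnodeA i.succ
  have h3 := algebraMap_mem_node_of_dvd (h𝔪 i.succ) hρ
  have : algebraMap R B0 (r i) =
      (A - algebraMap R B0 ρ1 + algebraMap R B0 ρ2) - (A - algebraMap R B0 (r i)) +
        algebraMap R B0 (ρ1 - ρ2) := by
    rw [map_sub]; ring
  rw [this]
  exact (𝔪 i.succ).add_mem ((𝔪 i.succ).sub_mem h2 h1) h3

/-- `R → F` is injective. -/
theorem algebraMap_injective_of_numData (D : NodalNumData R K F π t B0 B1 O1 O2) :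
    Function.Injective (algebraMap R F) := by
  haveI := D.fracR
  rw [IsScalarTower.algebraMap_eq R K F]
  exact (algebraMap K F).injective.comp (IsFractionRing.injective R K)

/-- `π` is not a unit of `R`. -/
theorem not_isUnit_pi (D : NodalNumData R K F π t B0 B1 O1 O2) : ¬ IsUnit π := by
  intro hu
  obtain ⟨s, hs⟩ := hu.exists_right_inv
  apply D.model.pi_nonunit1
  have h1 : algebraMap R F π * algebraMap R F s = 1 := by rw [← map_mul, hs, map_one]
  have h2 : (algebraMap R F π)⁻¹ = algebraMap R F s := inv_eq_of_mul_eq_one_right h1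
  rw [h2]
  exact D.model.le_O1_0 _ (B0.algebraMap_mem s)

open AlgebraicCurve Fermat.Agent.JAC.FF.CechAdelic9 Fermat.Agent.X0.FF in
/-- **(A) THE GENUS BOUND** `#nodes(B0) - 1 ≤ g`, with the descent of relations (A-D2) as the
only open hypothesis.  `Kb` algebraically closed of characteristic `0`, `Fb / Kb` a function field
with generator `x = ι t`. -/
theorem le_genusFF_of_nodes (D : NodalNumData R K F π t B0 B1 O1 O2)
    (hac1 : ResidueAlgClosed π O1) (hac2 : ResidueAlgClosed π O2)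
    (hnodes0 : ∀ 𝔫 : Ideal B0, IsNode π B0 O1 O2 𝔫 → NodeSumAt π B0 O1 O2 𝔫)
    (hpow : ∃ e : ℕ, 0 < e ∧ ∀ 𝔫 : Ideal B0, IsNode π B0 O1 O2 𝔫 →
      (⟨t, D.model.t_mem⟩ : B0) ^ (e + 1) - ⟨t, D.model.t_mem⟩ ∈ 𝔫)
    {m : ℕ} (𝔪 : Fin (m + 1) → Ideal B0) (h𝔪 : ∀ j, IsNode π B0 O1 O2 (𝔪 j))
    (hinj : Function.Injective 𝔪)
    {Kb Fb : Type*} [Field Kb] [Field Fb] [Algebra Kb Fb] [IsAlgClosed Kb] [CharZero Kb] {x : Fb}
    (hx : IsGen Kb x) (ι : F →+* Fb) (hιt : ι t = x)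
    (hιR : ∀ r : R, ∃ c : Kb, ι (algebraMap R F r) = algebraMap Kb Fb c)
    (hdesc : ∀ h : Fin m → F, (∀ i, h i ∈ overlap t B0 D.model.t_mem) →
      ∀ c : Fin m → Kb, c ≠ 0 →
      (∑ i, c i • ι (h i)) ∈ latFin x (0 : Divisor Kb Fb) ⊔ latInf x 0 →
      ∃ r : Fin m → R, r ≠ 0 ∧ ∃ (n : ℕ) (β0 β1 : F), β0 ∈ B0 ∧ β1 ∈ B1 ∧
        algebraMap R F π ^ n * ∑ i, algebraMap R F (r i) * h i = β0 + β1) :
    m ≤ genusFF Kb Fb := by
  obtain ⟨h, hh, hind⟩ := exists_residIndep D hac1 hac2 hnodes0 hpow 𝔪 h𝔪 hinj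
  have hnode : HasNode π B0 B1 O1 O2 := Or.inl ⟨𝔪 0, h𝔪 0⟩
  refine le_genusFF hx ι hιt (fun b hb => map_mem_latFin ι hιt hιR (D.model.int0 b hb))
    (algebraMap_injective_of_numData D) D.dvrR (not_isUnit_pi D) D.model.pi_ne
    (fun a ha b hb hab => h0k D hac1 hac2 hnode ha hb hab) hh hind (hdesc h hh)

end Fermat.Agent.MAZ.Toric.NodeClasses61
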