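/-
Program MAZ (S15), G-side, brick (PT) "purely toric", sub-brick (COUNT-ABS) (helper90).
Mathlib only.

**The abstract count behind (PT) at the auxiliary level.**

`P` an abelian group (think `Pic⁰(K·F_{4p})`, `K` an inertial number field), `m` an integer,
`P0 ≥ P1` subgroups (think: classes of multidegree zero on the special fibre; classes with local
equations `≡ 1` modulo `π` on the branches, i.e. `Cart 1`), `S` the number of nodes, `g` the genus.

* (B2) `P0` has index at most `S` in `P` (the component group is a subgroup of `ℤ/S`);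
* (B1) the `m`-torsion of `P0` modulo `P1` has at most `m^(S-1)` elements (the torus of the special
  fibre has rank `S - 1`; the components are rational), in the weak form: there is a FUNCTION
  `f` on `P0[m]` with values in a set of at most `m^(S-1)` elements whose fibres lie in cosets of `P1`;
* (B0) `P1` has no `m`-torsion (`NodalNumData.cl`);
* (A)  `S ≤ g + 1` (the arithmetic genus of the special fibre is at most the genus).

Then `#P[m] ≤ (g + 1) · m^g` (`card_tors_le`).  `card_le_of_cover` is the global form: a finite set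
`W` each of whose elements lies in the image of such a `P[m]` under an injective map.
-/
import Mathlib

set_option autoImplicit false
set_option linter.style.haveILetI false

namespace Fermat.Agent.MAZ.Toric.PTCountAbs90

variable {P : Type*} [AddCommGroup P]

/-- `P[m]`. -/
def torsM (P : Type*) [AddCommGroup P] (m : ℕ) : AddSubgroup P := (nsmulAddMonoidHom m).ker

theorem mem_torsM {m : ℕ} {x : P} : x ∈ torsM P m ↔ m • x = 0 := by
  rw [torsM, AddMonoidHom.mem_ker]
  rfl

/-- The geometric inputs of the count, for one model. -/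
structure ToricFrame (P : Type*) [AddCommGroup P] (m S g : ℕ) where
  /-- classes of multidegree zero -/
  P0 : AddSubgroup P
  /-- classes trivial on the special fibre (`Cart 1`) -/
  P1 : AddSubgroup P
  /-- (B2) -/
  index_ne : P0.index ≠ 0
  index_le : P0.index ≤ S
  /-- (B1): target of the toric invariant -/
  Tgt : Type
  finTgt : Finite Tgt
  card_Tgt : Nat.card Tgt ≤ m ^ (S - 1)
  inv : ↥(P0 ⊓ torsM P m) → Tgt
  inv_eq : ∀ x y : ↥(P0 ⊓ torsM P m), inv x = inv y → ((x : P) - (y : P)) ∈ P1
  /-- (B0) -/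
  inj : ∀ x ∈ P1, m • x = 0 → x = 0
  /-- (A) -/
  genus : S ≤ g + 1

namespace ToricFrame

variable {m S g : ℕ} (Fr : ToricFrame P m S g)

/-- the toric invariant is injective on `P0[m]`. -/
theorem inv_injective : Function.Injective Fr.inv := by
  intro x y hxy
  have h1 := Fr.inv_eq x y hxy
  have h2 : m • ((x : P) - (y : P)) = 0 := by
    rw [smul_sub, mem_torsM.mp x.2.2, mem_torsM.mp y.2.2, sub_zero]
  have h3 := Fr.inj _ h1 h2
  exact Subtype.ext (sub_eq_zero.mp h3)

theorem finite_P0_tors : Finite ↥(Fr.P0 ⊓ torsM P m) :=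
  haveI := Fr.finTgt
  Finite.of_injective Fr.inv Fr.inv_injective

theorem card_P0_tors_le : Nat.card ↥(Fr.P0 ⊓ torsM P m) ≤ m ^ (S - 1) :=
  haveI := Fr.finTgt
  (Nat.card_le_card_of_injective Fr.inv Fr.inv_injective).trans Fr.card_Tgt

include Fr in
/-- **the count**: `#P[m] ≤ S · m^(S-1)`, and `P[m]` is finite. -/
theorem card_tors_le_nodes :
    Finite ↥(torsM P m) ∧ Nat.card ↥(torsM P m) ≤ S * m ^ (S - 1) := by
  classical
  haveI := Fr.finite_P0_tors
  -- the subgroup `P0 ∩ P[m]` of `P[m]`
  let H : AddSubgroup ↥(torsM P m) := Fr.P0.addSubgroupOf (torsM P m)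
  -- its index is at most the index of `P0`
  have hrel : H.index = Fr.P0.relIndex (torsM P m) := rfl
  have hdvd : Fr.P0.relIndex (torsM P m) ∣ Fr.P0.index := AddSubgroup.relIndex_dvd_index_of_normal _ _
  have hidx_ne : H.index ≠ 0 := by
    rw [hrel]
    intro h0
    rw [h0, zero_dvd_iff] at hdvd
    exact Fr.index_ne hdvd
  have hidx_le : H.index ≤ S := by
    rw [hrel]
    exact (Nat.le_of_dvd (Nat.pos_of_ne_zero Fr.index_ne) hdvd).trans Fr.index_le
  -- `H ≃ P0 ∩ P[m]`
  have hcardH : Nat.card H = Nat.card ↥(Fr.P0 ⊓ torsM P m) := by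
    refine Nat.card_congr
      { toFun := fun x => ⟨((x : ↥(torsM P m)) : P), ⟨x.2, (x : ↥(torsM P m)).2⟩⟩
        invFun := fun x => ⟨⟨(x : P), x.2.2⟩, x.2.1⟩
        left_inv := fun x => rfl
        right_inv := fun x => rfl }
  haveI : Finite H := by
    refine Finite.of_injective
      (fun x : H => (⟨((x : ↥(torsM P m)) : P), ⟨x.2, (x : ↥(torsM P m)).2⟩⟩ :
        ↥(Fr.P0 ⊓ torsM P m))) ?_
    intro x y hxy
    have : ((x : ↥(torsM P m)) : P) = ((y : ↥(torsM P m)) : P) :=
      congrArg (fun z : ↥(Fr.P0 ⊓ torsM P m) => (z : P)) hxy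
    exact Subtype.ext (Subtype.ext this)
  haveI : H.FiniteIndex := ⟨hidx_ne⟩
  haveI : Finite (↥(torsM P m) ⧸ H) := AddSubgroup.finite_quotient_of_finiteIndex
  have hfin : Finite ↥(torsM P m) := Finite.of_addSubgroup_quotient H
  refine ⟨hfin, ?_⟩
  rw [← AddSubgroup.card_mul_index H, hcardH, mul_comm]
  exact Nat.mul_le_mul hidx_le Fr.card_P0_tors_le

include Fr in
/-- **(PT) for one model**: `#P[m] ≤ (g + 1) · m^g`. -/
theorem card_tors_le (hm : 0 < m) :
    Finite ↥(torsM P m) ∧ Nat.card ↥(torsM P m) ≤ (g + 1) * m ^ g := by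
  obtain ⟨hfin, hle⟩ := Fr.card_tors_le_nodes
  refine ⟨hfin, hle.trans ?_⟩
  have h1 : S - 1 ≤ g := by have := Fr.genus; omega
  exact Nat.mul_le_mul Fr.genus (Nat.pow_le_pow_right hm h1)

end ToricFrame

/-- **Global form**: a subset `W` of a group `J`, each FINITE subset of which is covered by the
`m`-torsion of some `P` with a toric frame (for the same `g`) under an injective map, has at most
`(g + 1) · m^g` elements. -/
theorem card_le_of_cover {J : Type*} (W : Set J) (m g : ℕ) (hm : 0 < m)
    (hcov : ∀ W₀ : Finset J, (↑W₀ : Set J) ⊆ W → ∃ (P : Type) (_ : AddCommGroup P) (S : ℕ)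
      (_ : ToricFrame P m S g) (φ : P → J), Function.Injective φ ∧
        ∀ w ∈ W₀, ∃ x : P, m • x = 0 ∧ φ x = w) :
    W.Finite ∧ W.ncard ≤ (g + 1) * m ^ g := by
  classical
  -- every finite subset has at most `(g+1) m^g` elements
  have hfinset : ∀ W₀ : Finset J, (↑W₀ : Set J) ⊆ W → W₀.card ≤ (g + 1) * m ^ g := by
    intro W₀ hW₀
    obtain ⟨P, _, S, Fr, φ, hφ, hφW⟩ := hcov W₀ hW₀
    obtain ⟨hfin, hle⟩ := Fr.card_tors_le hm
    choose! x hx using hφW
    have hinj : Function.Injective (fun w : W₀ => (⟨x w, mem_torsM.mpr (hx w w.2).1⟩ : torsM P m)) := by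
      intro w w' hww'
      have h1 : x w = x w' := congrArg (fun z : torsM P m => (z : P)) hww'
      apply Subtype.ext
      rw [← (hx w w.2).2, ← (hx w' w'.2).2, h1]
    have := Nat.card_le_card_of_injective _ hinj
    rw [Nat.card_eq_fintype_card, Fintype.card_coe] at this
    exact this.trans hle
  have hWfin : W.Finite := by
    by_contra hinf
    obtain ⟨W₀, hW₀, hcard⟩ := (Set.not_finite.mp hinf).exists_subset_card_eq ((g + 1) * m ^ g + 1)
    have := hfinset W₀ hW₀
    omega
  refine ⟨hWfin, ?_⟩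
  have := hfinset hWfin.toFinset (by simp)
  rwa [← Set.ncard_eq_toFinset_card W hWfin] at this

end Fermat.Agent.MAZ.Toric.PTCountAbs90
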