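/-
Program MAZ (S15), pole P1 = (PT), brick (RAT4), the instantiation asked for by helper90 (#2219):

  `ratCore_fullC_four : RatCore κ ↥(modularFunctionFieldFullC κ 4) m`

for every field `κ` with `2 ≠ 0` — "on the special fibre of `X₀(4)` a function all of whose orders are
divisible by `m` is a constant times an `m`-th power" — from `RatFour41.fullC_four_eq_adjoin`
(`κ(j̃(q^d) : d ∣ 4) = κ(t̄)`) and helper79's abstract `RatCore79.ratCore_of_adjoin`.  Same at level `9`.
-/
import Mathlib
import Fermat.Agent.MAZ.Toric.RatFour41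
import Fermat.Agent.MAZ.PT.RatCore79

set_option autoImplicit false

noncomputable section

open HahnSeries ModularCurve IntermediateField Polynomial
open Fermat.Agent.RED.BASE.EtaQuot12 Fermat.Agent.MAZ.PT.RatCore79

namespace Fermat.Agent.MAZ.Toric.RatCoreFour41

open Fermat.Agent.MAZ.Toric.RatFour41

/-- transcendence passes to the subtype of an intermediate field. -/
theorem transcendental_subtype {K E : Type*} [Field K] [Field E] [Algebra K E]
    (F : IntermediateField K E) (x : E) (hx : x ∈ F) (h : Transcendental K x) :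
    Transcendental K (⟨x, hx⟩ : F) := by
  intro halg
  have h1 : IsAlgebraic K (F.val ⟨x, hx⟩) := halg.algHom F.val
  exact h h1

/-- `RatCore` for a subfield `F = κ(x) ⊆ E` generated by one transcendental element. -/
theorem ratCore_of_eq_adjoin {K E : Type*} [Field K] [Field E] [Algebra K E]
    (F : IntermediateField K E) (x : E) (htr : Transcendental K x) (h : F = K⟮x⟯) (m : ℕ) :
    RatCore K ↥F m := by
  have hx : x ∈ F := by rw [h]; exact mem_adjoin_simple_self K x
  exact ratCore_of_adjoin (⟨x, hx⟩ : F) (transcendental_subtype F x hx htr)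
    (adjoin_subtype_eq_top F x hx h) m

/-- **(RAT4), consumer form.** -/
theorem ratCore_fullC_four (κ : Type) [Field κ] (h2 : (2 : κ) ≠ 0) (m : ℕ) :
    RatCore κ ↥(modularFunctionFieldFullC κ 4) m :=
  ratCore_of_eq_adjoin _ (tq κ 4 8)
    (Fermat.Agent.RED.BASE.TqTranscendental19.transcendental_tq κ 4 8)
    (fullC_four_eq_adjoin κ h2) m

/-- **(RAT4), consumer form, characteristic `ℓ ≠ 2`.** -/
theorem ratCore_fullC_four_of_charP (l : ℕ) [Fact l.Prime] (hl2 : l ≠ 2) (κ : Type) [Field κ]
    [CharP κ l] (m : ℕ) : RatCore κ ↥(modularFunctionFieldFullC κ 4) m :=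
  ratCore_of_eq_adjoin _ (tq κ 4 8)
    (Fermat.Agent.RED.BASE.TqTranscendental19.transcendental_tq κ 4 8)
    (fullC_four_eq_adjoin_of_charP l hl2 κ) m

/-- **(RAT9), consumer form, characteristic `ℓ ≠ 3`.** -/
theorem ratCore_fullC_nine_of_charP (l : ℕ) [Fact l.Prime] (hl3 : l ≠ 3) (κ : Type) [Field κ]
    [CharP κ l] (m : ℕ) : RatCore κ ↥(modularFunctionFieldFullC κ 9) m :=
  ratCore_of_eq_adjoin _ (tq κ 9 3)
    (Fermat.Agent.RED.BASE.TqTranscendental19.transcendental_tq κ 9 3)
    (fullC_nine_eq_adjoin_of_charP l hl3 κ) m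

/-- the number-field side: `RatCore` for `L · F₄` (`Interface4.FK 4 K` with `L := ↥K`). -/
theorem ratCore_laurentBaseChange_four (L : Type) [Field L] [Algebra ℚ L] (m : ℕ) :
    RatCore L ↥(laurentBaseChange L (modularFunctionFieldFull 4)) m :=
  ratCore_of_eq_adjoin _ (tq L 4 8)
    (Fermat.Agent.RED.BASE.TqTranscendental19.transcendental_tq L 4 8)
    (laurentBaseChange_four_eq_adjoin L) m

end Fermat.Agent.MAZ.Toric.RatCoreFour41
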