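/-
Program MAZ (S15), pole P1 = (PT) "purely toric reduction at `p`", brick **(RAT4)** (helper41).

**The level-`4` (and level-`9`) modular function field is rational over EVERY field of good
characteristic**: for every field `κ` with `2 ≠ 0` in `κ`,

  `modularFunctionFieldFullC κ 4 = κ(t̄)`,  `t̄ = tq κ 4 8 = q⁻¹ (η(q)/η(q⁴))⁸`,

as intermediate fields of `κ((q))` (`fullC_four_eq_adjoin`); likewise at level `9` with `tq κ 9 3` when
`3 ≠ 0` (`fullC_nine_eq_adjoin`).  In particular (characteristic `0`) for every subfield `K ⊂ ℚ̄`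
— e.g. a number field — `Interface4.FK 4 K = K(tq K 4 8)` (`laurentBaseChange_four_eq_adjoin`,
`adjoin_tM_eq_top`): this is the hypothesis `hgen` of `PT/RatChart79.chart_eq_adjoin`
("chart `R[t₄]`"), and in characteristic `ℓ` it is the statement that the special fibre of `X₀(4)`
is the `t̄`-line.

Proof.  BASE (helper12/helper19) proves `ℚ̄(t) = ℚ̄·F₄` by complex analysis.  Hence
(A1) `j(q^d) · s_d(t) = r_d(t)` with `r_d, s_d ∈ ℚ̄[X]`, `s_d ≠ 0` (`d ∣ 4`), and
(A2) `∑_{a ≤ ψ} W_a(j) t^a = 0` with `W_a ∈ ℚ̄[X]` not all zero, `ψ = ψ(4) = 6 = [ℚ̄·F₄ : ℚ̄(j)]`.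
Both are `ℚ̄`-linear relations between finitely many `q`-series with INTEGER coefficients
(`j(q^d)^b t^a`).  (LIN): such a relation can be replaced by one with integer coefficients not all
divisible by a given prime `ℓ` (project `ℚ̄ → ℚ` linearly, clear denominators, divide by the gcd), so
it survives in every field `κ` (`poly_transfer`).  Over `κ`: `t̄` and `j̃` are transcendental
(`TqTranscendental19`, `OvBasics22`), so (A1) gives `j̃(q^d) ∈ κ(t̄)`, i.e. `κ(j̃(q^d) : d ∣ 4) ⊆ κ(t̄)`,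
and (A2) gives `[κ(t̄) : κ(j̃)] ≤ ψ`; since `[κ(j̃(q^d) : d ∣ 4) : κ(j̃)] = ψ` (`DegBaseChange25`), the
two fields are equal.
-/
import Mathlib
import Fermat.Agent.RED.BASE.Main12
import Fermat.Agent.RED.BASE.TqTranscendental19
import Fermat.Agent.IG.VAL.OvBasics22
import Fermat.Agent.RED.PUR.DegBaseChange25
import Fermat.Agent.X0.GNPsi

set_option autoImplicit false

noncomputable section

open HahnSeries ModularCurve IntermediateField Polynomial
open Fermat.Agent.RED.BASE.EtaQuot12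

namespace Fermat.Agent.MAZ.Toric.RatFour41

/-! ### (LIN) integer relations -/

/-- **(LIN)** a linear relation with coefficients in a field of characteristic `0` between integer
vectors can be replaced by an integer relation which does not vanish modulo `ℓ`. -/
theorem exists_int_relation {ι α : Type*} [Fintype ι] {ℓ : ℕ} (hℓ : ℓ.Prime) {K : Type*} [Field K]
    [CharZero K] (y : ι → α → ℤ) (c : ι → K) (hc : ∃ i, c i ≠ 0)
    (h : ∀ n, ∑ i, c i * ((y i n : ℤ) : K) = 0) :
    ∃ c' : ι → ℤ, (∃ i, ¬ (ℓ : ℤ) ∣ c' i) ∧ ∀ n, ∑ i, c' i * y i n = 0 := by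
  classical
  obtain ⟨i₀, hi₀⟩ := hc
  -- a `ℚ`-linear functional `π` with `π (c i₀) = 1`
  have hinj : LinearMap.ker (LinearMap.toSpanSingleton ℚ K (c i₀)) = ⊥ := by
    rw [LinearMap.ker_eq_bot]
    intro a b hab
    simp only [LinearMap.toSpanSingleton_apply] at hab
    have : (a - b) • c i₀ = 0 := by rw [sub_smul, hab, sub_self]
    rcases smul_eq_zero.mp this with h0 | h0
    · exact sub_eq_zero.mp h0
    · exact absurd h0 hi₀
  obtain ⟨π, hπ⟩ := LinearMap.exists_leftInverse_of_injective _ hinj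
  have h1 : π (c i₀) = 1 := by
    have := LinearMap.congr_fun hπ 1
    simpa using this
  -- the rational relation
  have hQ : ∀ n, ∑ i, π (c i) * ((y i n : ℤ) : ℚ) = 0 := by
    intro n
    have h2 := congrArg π (h n)
    rw [map_sum, map_zero] at h2
    rw [← h2]
    refine Finset.sum_congr rfl fun i _ => ?_
    have : c i * ((y i n : ℤ) : K) = ((y i n : ℤ) : ℚ) • c i := by
      rw [Algebra.smul_def, mul_comm]
      congr 1
      simp
    rw [this, map_smul, smul_eq_mul, mul_comm]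
  -- clear denominators
  obtain ⟨b, hb⟩ := IsLocalization.exist_integer_multiples (nonZeroDivisors ℤ) Finset.univ
    (fun i => π (c i))
  have hb0 : (b : ℤ) ≠ 0 := nonZeroDivisors.ne_zero b.2
  choose d hd using fun i => hb i (Finset.mem_univ i)
  have hd' : ∀ i, ((d i : ℤ) : ℚ) = (b : ℤ) * π (c i) := by
    intro i
    have := hd i
    simpa [Algebra.smul_def] using this
  have hZ : ∀ n, ∑ i, d i * y i n = 0 := by
    intro n
    have : ((∑ i, d i * y i n : ℤ) : ℚ) = 0 := by
      push_cast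
      simp only [hd', mul_assoc]
      rw [← Finset.mul_sum, hQ n, mul_zero]
    exact_mod_cast this
  have hd0 : d i₀ ≠ 0 := by
    intro h0
    have := hd' i₀
    rw [h0, h1, mul_one] at this
    exact hb0 (by exact_mod_cast this.symm)
  -- extract the gcd
  obtain ⟨g, hg, hg1⟩ := Finset.extract_gcd d (Finset.univ_nonempty_iff.mpr ⟨i₀⟩)
  have hG0 : Finset.univ.gcd d ≠ 0 := by
    intro h0
    rw [Finset.gcd_eq_zero_iff] at h0
    exact hd0 (h0 i₀ (Finset.mem_univ _))
  refine ⟨g, ?_, fun n => ?_⟩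
  · by_contra hall
    have hall' : ∀ i, (ℓ : ℤ) ∣ g i := fun i => by
      by_contra hi
      exact hall ⟨i, hi⟩
    have : (ℓ : ℤ) ∣ Finset.univ.gcd g := Finset.dvd_gcd fun i _ => hall' i
    rw [hg1] at this
    have h3 : (ℓ : ℤ) = 1 ∨ (ℓ : ℤ) = -1 := Int.isUnit_iff.mp (isUnit_of_dvd_one this)
    have hℓ2 := hℓ.two_le
    omega
  · have h4 : Finset.univ.gcd d * ∑ i, g i * y i n = 0 := by
      rw [Finset.mul_sum, ← hZ n]
      refine Finset.sum_congr rfl fun i _ => ?_
      rw [hg i (Finset.mem_univ i), mul_assoc]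
    exact (mul_eq_zero.mp h4).resolve_left hG0

/-! ### Transfer of relations between integral `q`-series -/

theorem coeff_algebraMap_mul (F : Type*) [Field F] (c : F) (x : LaurentSeries F) (n : ℤ) :
    (algebraMap F (LaurentSeries F) c * x).coeff n = c * x.coeff n := by
  rw [algebraMap_laurentSeries_eq_single, HahnSeries.coeff_single_zero_mul]

/-- **transfer**: a `K`-linear relation (`K` of characteristic `0`) between the images of finitely
many integral `q`-series gives a nontrivial `κ`-linear relation between their images over ANY field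
`κ`. -/
theorem exists_relation_transfer {ι : Type*} [Fintype ι] {K : Type*} [Field K] [CharZero K]
    (κ : Type*) [Field κ] (y : ι → LaurentSeries ℤ) (c : ι → K) (hc : ∃ i, c i ≠ 0)
    (h : ∑ i, algebraMap K (LaurentSeries K) (c i) * coeffMap (Int.castRingHom K) (y i) = 0) :
    ∃ c' : ι → κ, (∃ i, c' i ≠ 0) ∧
      ∑ i, algebraMap κ (LaurentSeries κ) (c' i) * coeffMap (Int.castRingHom κ) (y i) = 0 := by
  classical
  have hcoef : ∀ n : ℤ, ∑ i, c i * (((y i).coeff n : ℤ) : K) = 0 := by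
    intro n
    have h1 := congrArg (fun z : LaurentSeries K => z.coeff n) h
    simp only [HahnSeries.coeff_sum, coeff_algebraMap_mul, coeffMap_coeff,
      HahnSeries.coeff_zero, eq_intCast] at h1
    exact h1
  -- the relation over `κ` from an integer relation
  have key : ∀ c' : ι → ℤ, (∀ n, ∑ i, c' i * (y i).coeff n = 0) →
      ∑ i, algebraMap κ (LaurentSeries κ) ((c' i : ℤ) : κ) *
        coeffMap (Int.castRingHom κ) (y i) = 0 := by
    intro c' hc'
    ext n
    simp only [HahnSeries.coeff_sum, coeff_algebraMap_mul, coeffMap_coeff,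
      HahnSeries.coeff_zero, eq_intCast]
    have := congrArg (fun z : ℤ => (z : κ)) (hc' n)
    simpa using this
  obtain ⟨p, hp⟩ := CharP.exists κ
  rcases CharP.char_is_prime_or_zero κ p with hpp | hp0
  · obtain ⟨c', ⟨i, hi⟩, hrel⟩ := exists_int_relation hpp (fun i n => (y i).coeff n) c hc hcoef
    refine ⟨fun i => ((c' i : ℤ) : κ), ⟨i, ?_⟩, key c' hrel⟩
    intro h0
    exact hi ((CharP.intCast_eq_zero_iff κ p _).mp h0)
  · subst hp0
    have : CharZero κ := CharP.charP_to_charZero κ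
    obtain ⟨c', ⟨i, hi⟩, hrel⟩ :=
      exists_int_relation Nat.prime_two (fun i n => (y i).coeff n) c hc hcoef
    refine ⟨fun i => ((c' i : ℤ) : κ), ⟨i, ?_⟩, key c' hrel⟩
    intro h0
    have h1 : ((c' i : ℤ) : κ) = 0 := h0
    have : c' i = 0 := by exact_mod_cast h1
    exact hi (this ▸ dvd_zero _)

/-- `Finset` form of the transfer. -/
theorem exists_relation_transfer_finset {ι : Type*} {K : Type*} [Field K] [CharZero K]
    (κ : Type*) [Field κ] (s : Finset ι) (y : ι → LaurentSeries ℤ) (c : ι → K)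
    (hc : ∃ i ∈ s, c i ≠ 0)
    (h : ∑ i ∈ s, algebraMap K (LaurentSeries K) (c i) * coeffMap (Int.castRingHom K) (y i) = 0) :
    ∃ c' : ι → κ, (∃ i ∈ s, c' i ≠ 0) ∧
      ∑ i ∈ s, algebraMap κ (LaurentSeries κ) (c' i) * coeffMap (Int.castRingHom κ) (y i) = 0 := by
  classical
  obtain ⟨i₀, hi₀, hci₀⟩ := hc
  have h' : ∑ i : s, algebraMap K (LaurentSeries K) (c i) *
      coeffMap (Int.castRingHom K) (y i) = 0 := by
    rw [Finset.sum_coe_sort s
      (fun i => algebraMap K (LaurentSeries K) (c i) * coeffMap (Int.castRingHom K) (y i))]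
    exact h
  obtain ⟨c', ⟨i, hi⟩, hrel⟩ := exists_relation_transfer κ (fun i : s => y i) (fun i : s => c i)
    ⟨⟨i₀, hi₀⟩, hci₀⟩ h'
  refine ⟨fun i => if hi : i ∈ s then c' ⟨i, hi⟩ else 0, ⟨i, i.2, ?_⟩, ?_⟩
  · simpa using hi
  · rw [← Finset.sum_coe_sort s]
    rw [← hrel]
    refine Finset.sum_congr rfl fun i _ => ?_
    simp

theorem sum_product_coeffMap (F : Type*) [Field F] (X' Y' : LaurentSeries ℤ) (m n : ℕ)
    (c : ℕ × ℕ → F) :
    ∑ p ∈ Finset.range m ×ˢ Finset.range n,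
        algebraMap F (LaurentSeries F) (c p) *
          coeffMap (Int.castRingHom F) (X' ^ p.2 * Y' ^ p.1) =
      ∑ a ∈ Finset.range m, (∑ b ∈ Finset.range n, algebraMap F (LaurentSeries F) (c (a, b)) *
        coeffMap (Int.castRingHom F) X' ^ b) * coeffMap (Int.castRingHom F) Y' ^ a := by
  rw [Finset.sum_product]
  refine Finset.sum_congr rfl fun a _ => ?_
  rw [Finset.sum_mul]
  refine Finset.sum_congr rfl fun b _ => ?_
  rw [map_mul, map_pow, map_pow, mul_assoc]

/-- **polynomial transfer.**  A nonzero relation `∑_{a < m} W_a(x) y^a = 0` (`W_a ∈ K[X]`, `K` of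
characteristic `0`) between the images of two integral `q`-series `X, Y` transfers to every field
`κ`. -/
theorem poly_transfer {K : Type*} [Field K] [CharZero K] (κ : Type*) [Field κ]
    (X' Y' : LaurentSeries ℤ) (m : ℕ) (W : ℕ → K[X]) (hW : ∃ a < m, W a ≠ 0)
    (h : ∑ a ∈ Finset.range m, aeval (coeffMap (Int.castRingHom K) X') (W a) *
      coeffMap (Int.castRingHom K) Y' ^ a = 0) :
    ∃ W' : ℕ → κ[X], (∃ a < m, W' a ≠ 0) ∧
      ∑ a ∈ Finset.range m, aeval (coeffMap (Int.castRingHom κ) X') (W' a) *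
        coeffMap (Int.castRingHom κ) Y' ^ a = 0 := by
  classical
  set n : ℕ := (Finset.range m).sup (fun a => (W a).natDegree) + 1 with hn
  have hdeg : ∀ a ∈ Finset.range m, (W a).natDegree < n := fun a ha =>
    Nat.lt_succ_of_le (Finset.le_sup (f := fun a => (W a).natDegree) ha)
  obtain ⟨a₀, ha₀, hWa₀⟩ := hW
  obtain ⟨c', ⟨p, hp, hcp⟩, hrel⟩ := exists_relation_transfer_finset κ
    (Finset.range m ×ˢ Finset.range n) (fun p => X' ^ p.2 * Y' ^ p.1)
    (fun p => (W p.1).coeff p.2)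
    ⟨(a₀, (W a₀).natDegree), Finset.mem_product.mpr
      ⟨Finset.mem_range.mpr ha₀, Finset.mem_range.mpr (hdeg a₀ (Finset.mem_range.mpr ha₀))⟩,
      by simpa using hWa₀⟩
    (by
      rw [sum_product_coeffMap K X' Y' m n (fun p => (W p.1).coeff p.2), ← h]
      refine Finset.sum_congr rfl fun a ha => ?_
      rw [aeval_eq_sum_range' (hdeg a ha)]
      congr 1)
  rw [sum_product_coeffMap κ X' Y' m n c'] at hrel
  have haev : ∀ a, aeval (coeffMap (Int.castRingHom κ) X')
      (∑ b ∈ Finset.range n, monomial b (c' (a, b))) =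
      ∑ b ∈ Finset.range n, algebraMap κ (LaurentSeries κ) (c' (a, b)) *
        coeffMap (Int.castRingHom κ) X' ^ b := by
    intro a
    rw [map_sum]
    refine Finset.sum_congr rfl fun b _ => ?_
    rw [aeval_monomial]
  refine ⟨fun a => ∑ b ∈ Finset.range n, monomial b (c' (a, b)), ⟨p.1, ?_, ?_⟩, ?_⟩
  · exact Finset.mem_range.mp (Finset.mem_product.mp hp).1
  · intro h0
    have h1 := congrArg (fun P : κ[X] => P.coeff p.2) h0
    simp only [finsetSum_coeff, coeff_monomial, Polynomial.coeff_zero] at h1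
    rw [Finset.sum_ite_eq' (Finset.range n) p.2, if_pos (Finset.mem_product.mp hp).2] at h1
    exact hcp h1
  · rw [← hrel]
    refine Finset.sum_congr rfl fun a _ => ?_
    rw [haev a]

/-! ### Part A: the two relations over a field where `F_n = K(t)` is known -/

section PartA

variable (K : Type) [Field K] (n e : ℕ) [NeZero n]

/-- (A1) `j(q^d) = r(t)/s(t)` in denominator-free form. -/
theorem exists_rel_jd (hL : modularFunctionFieldFullC K n = K⟮tq K n e⟯) (d : ℕ) [NeZero d]
    (hd : d ∣ n) :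
    ∃ r s : K[X], s ≠ 0 ∧
      qExpand K d (jqModC K) * aeval (tq K n e) s = aeval (tq K n e) r := by
  have hmem : qExpand K d (jqModC K) ∈ modularFunctionFieldFullC K n := jqModCd_mem_full K n hd
  rw [hL, mem_adjoin_simple_iff] at hmem
  obtain ⟨r, s, hrs⟩ := hmem
  by_cases hs : aeval (tq K n e) s = 0
  · refine ⟨0, 1, one_ne_zero, ?_⟩
    rw [hrs, hs, div_zero, zero_mul, map_zero]
  · refine ⟨r, s, ?_, ?_⟩
    · rintro rfl
      exact hs (map_zero _)
    · rw [hrs, div_mul_cancel₀ _ hs]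

/-- (A2) `t` satisfies a nonzero equation of degree `≤ ψ` over `K[j]`. -/
theorem exists_rel_t (hL : modularFunctionFieldFullC K n = K⟮tq K n e⟯) (ψ : ℕ) (hψ : ψ ≠ 0)
    (hdeg : relfinrank K⟮jqModC K⟯ (modularFunctionFieldFullC K n) = ψ) :
    ∃ W : ℕ → K[X], (∃ a < ψ + 1, W a ≠ 0) ∧
      ∑ a ∈ Finset.range (ψ + 1), aeval (jqModC K) (W a) * tq K n e ^ a = 0 := by
  classical
  have hAF : K⟮jqModC K⟯ ≤ adjoin K {tq K n e} := by
    rw [← hL, adjoin_simple_le_iff]
    exact jqModC_mem_full K n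
  rw [hL, relfinrank_eq_finrank_of_le hAF, extendScalars_adjoin hAF] at hdeg
  have hfin : FiniteDimensional K⟮jqModC K⟯ (K⟮jqModC K⟯)⟮tq K n e⟯ :=
    FiniteDimensional.of_finrank_pos (by omega)
  have hint : IsIntegral K⟮jqModC K⟯ (tq K n e) := by
    have := (Algebra.IsIntegral.of_finite K⟮jqModC K⟯ (K⟮jqModC K⟯)⟮tq K n e⟯).isIntegral
      (AdjoinSimple.gen K⟮jqModC K⟯ (tq K n e))
    exact (AdjoinSimple.isIntegral_gen _ _).mp this
  have hdeg' : (minpoly K⟮jqModC K⟯ (tq K n e)).natDegree = ψ := by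
    rw [← adjoin.finrank hint]; exact hdeg
  have hm0 : aeval (tq K n e) (minpoly K⟮jqModC K⟯ (tq K n e)) = 0 := minpoly.aeval _ _
  have hmonic : (minpoly K⟮jqModC K⟯ (tq K n e)).Monic := minpoly.monic hint
  generalize minpoly K⟮jqModC K⟯ (tq K n e) = m at hdeg' hm0 hmonic
  -- numerators and denominators of the coefficients
  have hex : ∀ a : ℕ, ∃ u v : K[X], aeval (jqModC K) v ≠ 0 ∧
      ((m.coeff a : K⟮jqModC K⟯) : LaurentSeries K) * aeval (jqModC K) v = aeval (jqModC K) u := by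
    intro a
    have hmem : ((m.coeff a : K⟮jqModC K⟯) : LaurentSeries K) ∈ K⟮jqModC K⟯ := (m.coeff a).2
    rw [mem_adjoin_simple_iff] at hmem
    obtain ⟨u, v, huv⟩ := hmem
    by_cases hv : aeval (jqModC K) v = 0
    · refine ⟨0, 1, by simp, ?_⟩
      rw [huv, hv, div_zero, zero_mul, map_zero]
    · exact ⟨u, v, hv, by rw [huv, div_mul_cancel₀ _ hv]⟩
  choose u v hv huv using hex
  set V : LaurentSeries K := ∏ a ∈ Finset.range (ψ + 1), aeval (jqModC K) (v a) with hV
  have hV0 : V ≠ 0 := Finset.prod_ne_zero_iff.mpr fun a _ => hv a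
  have hWa : ∀ a ∈ Finset.range (ψ + 1),
      aeval (jqModC K) (u a * ∏ b ∈ (Finset.range (ψ + 1)).erase a, v b) =
        ((m.coeff a : K⟮jqModC K⟯) : LaurentSeries K) * V := by
    intro a ha
    rw [map_mul, map_prod, ← huv a, hV,
      ← Finset.mul_prod_erase (Finset.range (ψ + 1)) (fun b => aeval (jqModC K) (v b)) ha,
      mul_assoc]
  refine ⟨fun a => u a * ∏ b ∈ (Finset.range (ψ + 1)).erase a, v b,
    ⟨ψ, Nat.lt_succ_self ψ, ?_⟩, ?_⟩
  · -- the top coefficient
    intro h0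
    have h0' : u ψ * ∏ b ∈ (Finset.range (ψ + 1)).erase ψ, v b = 0 := h0
    have h1 := hWa ψ (Finset.mem_range.mpr (Nat.lt_succ_self ψ))
    rw [h0', map_zero] at h1
    have h6 : m.coeff ψ = 1 := by
      have := hmonic.coeff_natDegree
      rwa [hdeg'] at this
    rw [h6] at h1
    simp only [OneMemClass.coe_one, one_mul] at h1
    exact hV0 h1.symm
  · have hW : ∀ a ∈ Finset.range (ψ + 1),
        aeval (jqModC K) (u a * ∏ b ∈ (Finset.range (ψ + 1)).erase a, v b) * tq K n e ^ a =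
          V * (((m.coeff a : K⟮jqModC K⟯) : LaurentSeries K) * tq K n e ^ a) := by
      intro a ha
      rw [hWa a ha]
      ring
    rw [Finset.sum_congr rfl hW, ← Finset.mul_sum]
    have hsum : ∑ a ∈ Finset.range (ψ + 1),
        ((m.coeff a : K⟮jqModC K⟯) : LaurentSeries K) * tq K n e ^ a = aeval (tq K n e) m := by
      rw [aeval_eq_sum_range' (by omega : m.natDegree < ψ + 1)]
      refine Finset.sum_congr rfl fun a _ => ?_
      rw [Algebra.smul_def]
      rfl
    rw [hsum, hm0, mul_zero]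

end PartA

/-! ### Part C: the field-theoretic squeeze over `κ` -/

section PartC

variable {κ E : Type*} [Field κ] [Field E] [Algebra κ E]

/-- (C1) a relation `W₀(t) + W₁(t) z = 0` with `(W₀, W₁) ≠ 0` and `t` transcendental puts `z` in
`κ(t)`. -/
theorem mem_adjoin_of_rel (t z : E) (ht : Transcendental κ t) (W : ℕ → κ[X])
    (hW : ∃ a < 2, W a ≠ 0)
    (h : ∑ a ∈ Finset.range 2, aeval t (W a) * z ^ a = 0) : z ∈ κ⟮t⟯ := by
  rw [Finset.sum_range_succ, Finset.sum_range_one, pow_zero, mul_one, pow_one] at h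
  have h1 : W 1 ≠ 0 := by
    intro h1
    rw [h1, map_zero, zero_mul, add_zero] at h
    have h0 : W 0 = 0 := transcendental_iff.mp ht _ h
    obtain ⟨a, ha, hWa⟩ := hW
    interval_cases a
    · exact hWa h0
    · exact hWa h1
  have h1' : aeval t (W 1) ≠ 0 := fun h0 => h1 (transcendental_iff.mp ht _ h0)
  rw [mem_adjoin_simple_iff]
  refine ⟨-W 0, W 1, ?_⟩
  rw [eq_div_iff h1', map_neg]
  linear_combination h

/-- (C3) a nonzero equation of degree `≤ m` for `t` over `κ[j]`, `j` transcendental, bounds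
`[κ(t) : κ(j)]`. -/
theorem relfinrank_le_of_rel (j t : E) (hj : Transcendental κ j) (hjt : κ⟮j⟯ ≤ κ⟮t⟯) (m : ℕ)
    (W : ℕ → κ[X]) (hW : ∃ a < m + 1, W a ≠ 0)
    (h : ∑ a ∈ Finset.range (m + 1), aeval j (W a) * t ^ a = 0) :
    relfinrank κ⟮j⟯ κ⟮t⟯ ≤ m ∧ relfinrank κ⟮j⟯ κ⟮t⟯ ≠ 0 := by
  classical
  have hmem : ∀ a, aeval j (W a) ∈ κ⟮j⟯ := fun a => by
    rw [mem_adjoin_simple_iff]
    exact ⟨W a, 1, by simp⟩
  set P : (κ⟮j⟯)[X] := ∑ a ∈ Finset.range (m + 1), monomial a ⟨aeval j (W a), hmem a⟩ with hP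
  have hPt : aeval t P = 0 := by
    rw [hP, map_sum, ← h]
    refine Finset.sum_congr rfl fun a _ => ?_
    rw [aeval_monomial]
    rfl
  have hP0 : P ≠ 0 := by
    obtain ⟨a, ha, hWa⟩ := hW
    intro h0
    have h1 := congrArg (fun Q : (κ⟮j⟯)[X] => Q.coeff a) h0
    simp only [hP, finsetSum_coeff, coeff_monomial, Polynomial.coeff_zero] at h1
    rw [Finset.sum_ite_eq' (Finset.range (m + 1)) a, if_pos (Finset.mem_range.mpr ha)] at h1
    have h2 : aeval j (W a) = 0 := congrArg Subtype.val h1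
    exact hWa (transcendental_iff.mp hj _ h2)
  have hPdeg : P.natDegree ≤ m := by
    rw [hP]
    refine natDegree_sum_le_of_forall_le _ _ fun a ha => ?_
    exact (natDegree_monomial_le _).trans (Nat.lt_succ_iff.mp (Finset.mem_range.mp ha))
  have hint : IsIntegral κ⟮j⟯ t := isAlgebraic_iff_isIntegral.mp ⟨P, hP0, hPt⟩
  have hrk : relfinrank κ⟮j⟯ κ⟮t⟯ = (minpoly κ⟮j⟯ t).natDegree := by
    rw [relfinrank_eq_finrank_of_le hjt, extendScalars_adjoin hjt, adjoin.finrank hint]
  rw [hrk]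
  exact ⟨(natDegree_le_natDegree (minpoly.degree_le_of_ne_zero _ _ hP0 hPt)).trans hPdeg,
    (minpoly.natDegree_pos hint).ne'⟩

/-- (C4) the squeeze. -/
theorem eq_of_relfinrank {A F B : IntermediateField κ E} (hAF : A ≤ F) (hFB : F ≤ B) (n : ℕ)
    (hn : n ≠ 0) (h1 : relfinrank A F = n) (h2 : relfinrank A B ≤ n) (h3 : relfinrank A B ≠ 0) :
    F = B := by
  have hmul := relfinrank_mul_relfinrank hAF hFB
  rw [h1] at hmul
  have hx : relfinrank F B = 1 := by
    rcases Nat.eq_zero_or_pos (relfinrank F B) with h0 | hpos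
    · rw [h0, mul_zero] at hmul
      exact absurd hmul.symm h3
    · have : n * relfinrank F B ≤ n * 1 := by rw [hmul, mul_one]; exact h2
      have := Nat.le_of_mul_le_mul_left this (Nat.pos_of_ne_zero hn)
      omega
  exact le_antisymm hFB (relfinrank_eq_one_iff.mp hx)

end PartC

/-! ### The transfer of `F_n = K(t)` to every field -/

section Main

/-- **Transfer of rationality.**  If `K(j(q^d) : d ∣ n) = K(t)` over ONE field `K` of characteristic
`0`, then `κ(j̃(q^d) : d ∣ n) = κ(t̄)` over EVERY field `κ` over which the degree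
`[κ(j̃(q^d) : d ∣ n) : κ(j̃)]` is the generic one. -/
theorem fullC_eq_adjoin_of_base (K : Type) [Field K] [CharZero K] (n e : ℕ) [NeZero n]
    (hL : modularFunctionFieldFullC K n = K⟮tq K n e⟯) (κ : Type) [Field κ] (ψ : ℕ) (hψ : ψ ≠ 0)
    (hdegK : relfinrank K⟮jqModC K⟯ (modularFunctionFieldFullC K n) = ψ)
    (hdegκ : relfinrank κ⟮jqModC κ⟯ (modularFunctionFieldFullC κ n) = ψ) :
    modularFunctionFieldFullC κ n = κ⟮tq κ n e⟯ := by
  have htr : Transcendental κ (tq κ n e) :=
    Fermat.Agent.RED.BASE.TqTranscendental19.transcendental_tq κ n e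
  have hjtr : Transcendental κ (jqModC κ) :=
    Fermat.Agent.IG.VAL.OvBasics22.transcendental_jqModC κ
  have htK : ∀ (F : Type) [Field F], coeffMap (Int.castRingHom F) (tq ℤ n e) = tq F n e :=
    fun F _ => coeffMap_tq ℤ (Int.castRingHom F) n e
  have hjK : ∀ (F : Type) [Field F], coeffMap (Int.castRingHom F) (jqModC ℤ) = jqModC F :=
    fun F _ => coeffMap_jqModC (Int.castRingHom F)
  have hjdK : ∀ (F : Type) [Field F] (d : ℕ) [NeZero d],
      coeffMap (Int.castRingHom F) (qExpand ℤ d (jqModC ℤ)) = qExpand F d (jqModC F) :=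
    fun F _ d _ => by rw [coeffMap_qExpand, coeffMap_jqModC]
  -- `F ≤ κ(t̄)`
  have hFB : modularFunctionFieldFullC κ n ≤ κ⟮tq κ n e⟯ := by
    rw [modularFunctionFieldFullC, adjoin_le_iff]
    rintro x ⟨d, hd0, hd, rfl⟩
    obtain ⟨r, s, hs, hrs⟩ := exists_rel_jd K n e hL d hd
    obtain ⟨W', hW', hrel'⟩ := poly_transfer (K := K) κ (tq ℤ n e) (qExpand ℤ d (jqModC ℤ)) 2
      (fun a => if a = 0 then -r else s) ⟨1, by norm_num, by simpa using hs⟩
      (by
        rw [htK K, hjdK K d, Finset.sum_range_succ, Finset.sum_range_one]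
        simp only [if_true, one_ne_zero, if_false, pow_zero, mul_one, pow_one, map_neg]
        rw [mul_comm, hrs]
        ring)
    rw [htK κ, hjdK κ d] at hrel'
    exact mem_adjoin_of_rel (tq κ n e) (qExpand κ d (jqModC κ)) htr W' hW' hrel'
  have hAF : κ⟮jqModC κ⟯ ≤ modularFunctionFieldFullC κ n := by
    rw [adjoin_simple_le_iff]
    exact jqModC_mem_full κ n
  -- the degree bound
  obtain ⟨W, hW, hrel⟩ := exists_rel_t K n e hL ψ hψ hdegK
  obtain ⟨W', hW', hrel'⟩ := poly_transfer (K := K) κ (jqModC ℤ) (tq ℤ n e) (ψ + 1) W hW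
    (by rw [htK K, hjK K]; exact hrel)
  rw [htK κ, hjK κ] at hrel'
  obtain ⟨hle, hne⟩ := relfinrank_le_of_rel (jqModC κ) (tq κ n e) hjtr (hAF.trans hFB) ψ W' hW'
    hrel'
  exact eq_of_relfinrank hAF hFB ψ hψ hdegκ hle hne

/-! ### The base field `ℚ̄` -/

open Fermat.Agent.X0 Fermat.Agent.RED.BASE.Interface12 in
/-- BASE's `ℚ̄(t) = ℚ̄·F_n` (`TGenBase`), as an equality of subfields of `ℚ̄((q))`. -/
theorem fullC_bar_eq_adjoin (n e : ℕ) [NeZero n] (hgen : TGenBase n e) :
    modularFunctionFieldFullC Kbar n = Kbar⟮tq Kbar n e⟯ := by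
  obtain ⟨h, htop⟩ := hgen
  rw [← Fermat.Agent.RED.PUR.DegBaseChange25.laurentBaseChange_full_eq Kbar n]
  have h1 := congrArg (IntermediateField.map (modularFunctionFieldBar n).val) htop
  rw [IntermediateField.adjoin_map, Set.image_singleton, ← AlgHom.fieldRange_eq_map,
    IntermediateField.fieldRange_val] at h1
  exact h1.symm

/-- **(RAT-n)** rationality of level `n` over every field `κ` of characteristic prime to `n`, given
BASE's `TGenBase n e`: the two degree hypotheses are `DegBaseChange25`. -/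
theorem fullC_eq_adjoin_of_genBase (n e : ℕ) [NeZero n]
    (hgen : Fermat.Agent.RED.BASE.Interface12.TGenBase n e) (κ : Type) [Field κ]
    (hdegκ : relfinrank κ⟮jqModC κ⟯ (modularFunctionFieldFullC κ n) = dedekindPsi n) :
    modularFunctionFieldFullC κ n = κ⟮tq κ n e⟯ :=
  fullC_eq_adjoin_of_base Fermat.Agent.X0.Kbar n e (fullC_bar_eq_adjoin n e hgen) κ (dedekindPsi n)
    (Fermat.Agent.X0.GNPsi.gnp_dedekindPsi_pos (NeZero.ne n)).ne'
    (Fermat.Agent.RED.PUR.DegBaseChange25.relfinrank_fullC_eq_psi_of_charZero _ n) hdegκ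

/-! ### Level `4` -/

/-- **(RAT4), characteristic `ℓ ≠ 2`.**  The special fibre of `X₀(4)` is the `t̄`-line. -/
theorem fullC_four_eq_adjoin_of_charP (l : ℕ) [Fact l.Prime] (hl2 : l ≠ 2) (κ : Type) [Field κ]
    [CharP κ l] : modularFunctionFieldFullC κ 4 = κ⟮tq κ 4 8⟯ := by
  refine fullC_eq_adjoin_of_genBase 4 8
    (Fermat.Agent.RED.BASE.Main12.baseExports_four 4 (dvd_refl 4)).genBase κ
    (Fermat.Agent.RED.PUR.DegBaseChange25.relfinrank_fullC_eq_psi_of_charP l κ 4 ?_)
  intro h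
  have h4 : l ∣ 2 ^ 2 := by norm_num; exact h
  exact hl2 ((Nat.prime_dvd_prime_iff_eq (Fact.out : l.Prime) Nat.prime_two).mp
    ((Fact.out : l.Prime).dvd_of_dvd_pow h4))

/-- **(RAT4), characteristic `0`**: `K·F₄ = K(t)` over EVERY field `K` of characteristic `0`. -/
theorem fullC_four_eq_adjoin_of_charZero (K : Type) [Field K] [CharZero K] :
    modularFunctionFieldFullC K 4 = K⟮tq K 4 8⟯ :=
  fullC_eq_adjoin_of_genBase 4 8
    (Fermat.Agent.RED.BASE.Main12.baseExports_four 4 (dvd_refl 4)).genBase K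
    (Fermat.Agent.RED.PUR.DegBaseChange25.relfinrank_fullC_eq_psi_of_charZero K 4)

/-- **(RAT4)** over every field in which `2 ≠ 0`. -/
theorem fullC_four_eq_adjoin (κ : Type) [Field κ] (h2 : (2 : κ) ≠ 0) :
    modularFunctionFieldFullC κ 4 = κ⟮tq κ 4 8⟯ := by
  obtain ⟨p, hp⟩ := CharP.exists κ
  rcases CharP.char_is_prime_or_zero κ p with hpp | hp0
  · have : Fact p.Prime := ⟨hpp⟩
    refine fullC_four_eq_adjoin_of_charP p ?_ κ
    rintro rfl
    exact h2 (by exact_mod_cast CharP.cast_eq_zero κ 2)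
  · subst hp0
    have : CharZero κ := CharP.charP_to_charZero κ
    exact fullC_four_eq_adjoin_of_charZero κ

/-! ### Level `9` -/

/-- **(RAT9), characteristic `ℓ ≠ 3`.** -/
theorem fullC_nine_eq_adjoin_of_charP (l : ℕ) [Fact l.Prime] (hl3 : l ≠ 3) (κ : Type) [Field κ]
    [CharP κ l] : modularFunctionFieldFullC κ 9 = κ⟮tq κ 9 3⟯ := by
  refine fullC_eq_adjoin_of_genBase 9 3
    (Fermat.Agent.RED.BASE.Main12.baseExports_nine 9 (dvd_refl 9)).genBase κ
    (Fermat.Agent.RED.PUR.DegBaseChange25.relfinrank_fullC_eq_psi_of_charP l κ 9 ?_)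
  intro h
  have h9 : l ∣ 3 ^ 2 := by norm_num; exact h
  exact hl3 ((Nat.prime_dvd_prime_iff_eq (Fact.out : l.Prime) Nat.prime_three).mp
    ((Fact.out : l.Prime).dvd_of_dvd_pow h9))

/-- **(RAT9), characteristic `0`.** -/
theorem fullC_nine_eq_adjoin_of_charZero (K : Type) [Field K] [CharZero K] :
    modularFunctionFieldFullC K 9 = K⟮tq K 9 3⟯ :=
  fullC_eq_adjoin_of_genBase 9 3
    (Fermat.Agent.RED.BASE.Main12.baseExports_nine 9 (dvd_refl 9)).genBase K
    (Fermat.Agent.RED.PUR.DegBaseChange25.relfinrank_fullC_eq_psi_of_charZero K 9)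

/-! ### The Prelude's base-changed field `L · F₄` (`Interface4.FK 4 K`) -/

/-- In a subfield `F = K(x)` the element `x` generates: `K⟮⟨x, _⟩⟯ = ⊤` in `↥F`. -/
theorem adjoin_subtype_eq_top {K E : Type*} [Field K] [Field E] [Algebra K E]
    (F : IntermediateField K E) (x : E) (hx : x ∈ F) (h : F = K⟮x⟯) :
    K⟮(⟨x, hx⟩ : F)⟯ = ⊤ := by
  apply IntermediateField.map_injective F.val
  rw [IntermediateField.adjoin_map, Set.image_singleton, ← AlgHom.fieldRange_eq_map,
    IntermediateField.fieldRange_val]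
  exact h.symm

/-- `L · F₄ = L(t)` for every field `L ⊇ ℚ` (for `L = K ⊂ ℚ̄`: `Interface4.FK 4 K = K(tq K 4 8)`). -/
theorem laurentBaseChange_four_eq_adjoin (L : Type) [Field L] [Algebra ℚ L] :
    laurentBaseChange L (modularFunctionFieldFull 4) = L⟮tq L 4 8⟯ := by
  have : CharZero L := algebraRat.charZero L
  rw [Fermat.Agent.RED.PUR.DegBaseChange25.laurentBaseChange_full_eq]
  exact fullC_four_eq_adjoin_of_charZero L

/-- the Hauptmodul lies in `L · F₄` (the hypothesis `ht` of `ModelDefs9.tM` at `M' = 4`). -/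
theorem tq_mem_laurentBaseChange_four (L : Type) [Field L] [Algebra ℚ L] :
    tq L 4 8 ∈ laurentBaseChange L (modularFunctionFieldFull 4) := by
  rw [laurentBaseChange_four_eq_adjoin]
  exact mem_adjoin_simple_self L _

/-- **`hgen` of `RatChart79.chart_eq_adjoin` at level `4`**: `K⟮tM ht⟯ = ⊤` in `↥(FK 4 K)`
(`ModelDefs9.tM ht` is by definition `⟨tq K 4 8, ht⟩`). -/
theorem adjoin_tM_four_eq_top (L : Type) [Field L] [Algebra ℚ L]
    (ht : tq L 4 8 ∈ laurentBaseChange L (modularFunctionFieldFull 4)) :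
    L⟮(⟨tq L 4 8, ht⟩ : ↥(laurentBaseChange L (modularFunctionFieldFull 4)))⟯ = ⊤ :=
  adjoin_subtype_eq_top _ _ ht (laurentBaseChange_four_eq_adjoin L)

/-- `L · F₉ = L(t)` for every field `L ⊇ ℚ`. -/
theorem laurentBaseChange_nine_eq_adjoin (L : Type) [Field L] [Algebra ℚ L] :
    laurentBaseChange L (modularFunctionFieldFull 9) = L⟮tq L 9 3⟯ := by
  have : CharZero L := algebraRat.charZero L
  rw [Fermat.Agent.RED.PUR.DegBaseChange25.laurentBaseChange_full_eq]
  exact fullC_nine_eq_adjoin_of_charZero L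

theorem adjoin_tM_nine_eq_top (L : Type) [Field L] [Algebra ℚ L]
    (ht : tq L 9 3 ∈ laurentBaseChange L (modularFunctionFieldFull 9)) :
    L⟮(⟨tq L 9 3, ht⟩ : ↥(laurentBaseChange L (modularFunctionFieldFull 9)))⟯ = ⊤ :=
  adjoin_subtype_eq_top _ _ ht (laurentBaseChange_nine_eq_adjoin L)

end Main

end Fermat.Agent.MAZ.Toric.RatFour41
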